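import Fermat.Agent.KlingenIntegral.LevelOne
import Fermat.Agent.Root.SummaryWeightSucc

/-!
# The constant terms are bounded by the other coefficients

Let a form of weight `w ≤ ℓ - 2` on a group of finite index have expansions in `q ^ (1 / h)`, `h`
prime to `ℓ`, at every cusp. Were every coefficient of positive index smaller than the largest
constant, the elementary symmetric function of the Serre derivatives of the translates would be a
level one form of weight `d (w + 2)` congruent to a multiple of `E₂ ^ d`, whose filtration is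
`d (ℓ + 1)`.
-/

set_option autoImplicit false
set_option linter.style.haveILetI false

noncomputable section

open UpperHalfPlane hiding I
open ModularForm EisensteinSeries Derivative
open scoped MatrixGroups Manifold ModularForm

namespace FA.KlingenIntegral

open FA.Eis FA.KlingenRay
open FA.ModField (qp thetaFun_coeff)

/-- A series in `q` as one in `q ^ (1 / h)`. -/
theorem hasQ_expand {h : ℕ} (hh : h ≠ 0) {g : ℍ → ℂ} {A : PowerSeries ℂ} (hA : HasQ 1 g A) :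
    HasQ (h : ℝ) g (PowerSeries.expand h hh A) := fun τ => by
  rw [← Function.Injective.hasSum_iff (g := fun m : ℕ => h * m)
    (mul_right_injective₀ hh) fun n hn => by
      rw [PowerSeries.coeff_expand_of_not_dvd h hh _ fun ⟨m, hm⟩ => hn ⟨m, hm.symm⟩, zero_mul]]
  refine (hA τ).congr_fun fun m => ?_
  rw [Function.comp_apply, PowerSeries.coeff_expand_mul]
  congr 1
  rw [Function.Periodic.qParam, Function.Periodic.qParam, ← Complex.exp_nat_mul,
    ← Complex.exp_nat_mul]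
  congr 1
  have : (h : ℂ) ≠ 0 := Nat.cast_ne_zero.2 hh
  push_cast
  field_simp

/-- **The derivative in the period `h`.** -/
theorem hasQ_deriv_period {h : ℕ} [NeZero h] {f : ℍ → ℂ} {A : PowerSeries ℂ}
    (hA : HasQ (h : ℝ) f A) : HasQ (h : ℝ) (normalizedDerivOfComplex f)
      (PowerSeries.mk fun m => (h : ℂ)⁻¹ * (m : ℂ) * PowerSeries.coeff m A) := by
  have key : ∀ (g : ℍ → ℂ) (B : PowerSeries ℂ) (L : LaurentSeries ℂ),
      (∀ n : ℤ, n < 0 → L.coeff n = 0) → (∀ n : ℕ, L.coeff n = PowerSeries.coeff n B) →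
      (FA.ModField.HasExp (qp h) g L ↔ HasQ (h : ℝ) g B) := fun g B L hn hB => by
    refine forall_congr' fun z => ?_
    rw [← Function.Injective.hasSum_iff (g := fun n : ℕ => (n : ℤ)) Nat.cast_injective fun m hm => by
      rw [hn m (by
        by_contra hcon
        exact hm ⟨m.toNat, Int.toNat_of_nonneg (not_lt.1 hcon)⟩), zero_mul]]
    simp only [Function.comp_def, hB, qp, zpow_natCast]
  obtain ⟨L, hL⟩ : ∃ L, L = HahnSeries.ofPowerSeries ℤ ℂ A := ⟨_, rfl⟩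
  have hneg : ∀ n : ℤ, n < 0 → L.coeff n = 0 := fun n hn =>
    hL ▸ ModularCurve.ofPowerSeries_coeff_of_neg _ hn
  have hnat : ∀ n : ℕ, L.coeff n = PowerSeries.coeff n A := fun n => by
    rw [hL]
    exact FA.ModField.ofPowerSeries_coeff_natCast _ n
  have hE := ((key f A L hneg hnat).2 hA).normalizedDeriv
  refine (key _ _ _ (fun n hn => ?_) fun n => ?_).1 hE
  · rw [HahnSeries.C_apply, HahnSeries.coeff_single_zero_mul, thetaFun_coeff, hneg n hn,
      mul_zero, mul_zero]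
  · rw [HahnSeries.C_apply, HahnSeries.coeff_single_zero_mul, thetaFun_coeff, hnat,
      PowerSeries.coeff_mk]
    push_cast
    ring

variable {Γ : Subgroup SL(2, ℤ)} {w : ℕ} {f : ℍ → ℂ}

/-- The Serre derivative of a form is a form of weight `w + 2`. -/
theorem isMF_serre (hf : IsMF Γ w f) : IsMF Γ (w + 2) (serreDerivative ((w : ℤ) : ℂ) f) where
  inv γ hγ := by
    rw [show ((w + 2 : ℕ) : ℤ) = (w : ℤ) + 2 by push_cast; rfl]
    exact serreDerivative_slash_invariant hf.hol (hf.inv γ hγ)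
  hol := serreDerivative_mdifferentiable _ hf.hol
  bdd A := by
    rw [show ((w + 2 : ℕ) : ℤ) = (w : ℤ) + 2 by push_cast; rfl]
    rw [serreDerivative_slash_equivariant hf.hol]
    exact (FA.Dim.isBoundedAtImInfty_D (MDifferentiable.slash hf.hol _ _) (hf.bdd A)).sub
      (((Filter.const_boundedAtFilter _ (((w : ℤ) : ℂ) * 12⁻¹)).mul
        EisensteinSeries.isBoundedAtImInfty_E2).mul (hf.bdd A))

theorem conjFun_serre (hf : IsMF Γ w f) (i : SL(2, ℤ) ⧸ Γ) :
    conjFun Γ (w + 2) (serreDerivative ((w : ℤ) : ℂ) f) i =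
      serreDerivative ((w : ℤ) : ℂ) (conjFun Γ w f i) := by
  rw [conjFun, conjFun, show ((w + 2 : ℕ) : ℤ) = (w : ℤ) + 2 by push_cast; rfl]
  exact serreDerivative_slash_equivariant hf.hol

/-- An elementary symmetric function of the translates has level one. -/
theorem isLv_negProd [Fintype (SL(2, ℤ) ⧸ Γ)] (hf : IsMF Γ w f) (d : ℕ) :
    IsLv 1 ((d * w : ℕ) : ℤ)
      (∑ t ∈ Finset.powersetCard d (Finset.univ : Finset (SL(2, ℤ) ⧸ Γ)), negProd Γ w f t) := by
  classical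
  have hc : ∀ {t : Finset (SL(2, ℤ) ⧸ Γ)}, t ∈ Finset.powersetCard d Finset.univ → t.card = d :=
    fun ht => (Finset.mem_powersetCard.1 ht).2
  refine ⟨fun A _ => ?_, ?_, ?_⟩
  · rw [SlashAction.sum_slash]
    refine Finset.sum_equiv (MulAction.toPerm A⁻¹).finsetCongr (fun t => ?_) fun t ht => ?_
    · simp [Finset.mem_powersetCard, Equiv.finsetCongr_apply]
    · rw [← hc ht, (hf.negProd_spec t).1 A, Equiv.finsetCongr_apply]
  · exact MDifferentiable.sum fun t _ => (hf.negProd_spec t).2.1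
  · exact BddAllCusps.sum _ fun t ht => hc ht ▸ (hf.negProd_spec t).2.2

variable {O : ValuationSubring ℂ} {ℓ h : ℕ}

/-- **No form has all coefficients of positive index small and a unit among its constants.** -/
theorem not_small [Γ.FiniteIndex] (hp : ℓ.Prime) (hℓ : O.valuation (ℓ : ℂ) < 1) (h5 : 5 ≤ ℓ)
    (hw : w ≠ 0) (hwl : w + 2 ≤ ℓ) (hf : IsMF Γ w f) (hh : ¬ℓ ∣ h)
    (T : SL(2, ℤ) ⧸ Γ → PowerSeries ℂ) (hT : ∀ i, HasQ (h : ℝ) (conjFun Γ w f i) (T i))
    (hpos : ∀ i n, n ≠ 0 → O.valuation (PowerSeries.coeff n (T i)) < 1)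
    (hcon : ∀ i, O.valuation (PowerSeries.coeff 0 (T i)) ≤ 1) {i₀ : SL(2, ℤ) ⧸ Γ}
    (hone : O.valuation (PowerSeries.coeff 0 (T i₀)) = 1) : False := by
  classical
  haveI := Fact.mk hp
  let _ : Fintype (SL(2, ℤ) ⧸ Γ) := Fintype.ofFinite _
  have hh0 : h ≠ 0 := fun e => hh (e ▸ dvd_zero ℓ)
  haveI : NeZero h := ⟨hh0⟩
  have hhv : O.valuation (h : ℂ) = 1 := val_natCast_eq_one hp hℓ hh
  obtain ⟨ρ, hρ⟩ : ∃ ρ : O →+* IsLocalRing.ResidueField O, ρ = IsLocalRing.residue O := ⟨_, rfl⟩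
  obtain ⟨ι, hι⟩ : ∃ ι, ι = redHom hp hℓ := ⟨_, rfl⟩
  have hρ0 : ∀ x : O, ρ x = 0 ↔ O.valuation (x : ℂ) < 1 := fun x => hρ ▸ residue_eq_zero x
  have hall : ∀ i n, O.valuation (PowerSeries.coeff n (T i)) ≤ 1 := fun i n => by
    rcases eq_or_ne n 0 with rfl | hn
    exacts [hcon i, (hpos i n hn).le]
  obtain ⟨S, hS⟩ : ∃ S : SL(2, ℤ) ⧸ Γ → PowerSeries O, ∀ i, (S i).map O.subtype = T i :=
    ⟨fun i => PowerSeries.mk fun n => ⟨_, (O.valuation_le_one_iff _).1 (hall i n)⟩,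
      fun i => PowerSeries.ext fun n => by simp⟩
  have hScoe : ∀ i n, ((PowerSeries.coeff n (S i) : O) : ℂ) = PowerSeries.coeff n (T i) :=
    fun i n => by rw [← hS i, PowerSeries.coeff_map]; rfl
  obtain ⟨hinv, hhinv⟩ : ∃ x : O, (x : ℂ) = (h : ℂ)⁻¹ := ⟨⟨_, (O.valuation_le_one_iff _).1
    (by rw [map_inv₀, hhv, inv_one])⟩, rfl⟩
  obtain ⟨Dv, hD⟩ : ∃ Dv : SL(2, ℤ) ⧸ Γ → PowerSeries O, ∀ i n,
      PowerSeries.coeff n (Dv i) = hinv * (n : O) * PowerSeries.coeff n (S i) :=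
    ⟨fun i => PowerSeries.mk fun n => hinv * (n : O) * PowerSeries.coeff n (S i),
      fun i n => PowerSeries.coeff_mk _ _⟩
  obtain ⟨P, hP⟩ : ∃ P : PowerSeries O,
      P = PowerSeries.expand h hh0 (FA.Tau.eTwoInt.map (Int.castRingHom O)) := ⟨_, rfl⟩
  have h12 : ¬ℓ ∣ 12 := fun hd => by
    rcases (hp.dvd_mul (m := 4) (n := 3)).1 hd with h' | h'
    · have := (Nat.le_of_dvd (by norm_num) h')
      omega
    · have := (Nat.le_of_dvd (by norm_num) h')
      omega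
  have hwd : ¬ℓ ∣ w := fun hd => by
    have := Nat.le_of_dvd (Nat.pos_of_ne_zero hw) hd
    omega
  have hlv : O.valuation ((w : ℂ) * 12⁻¹) = 1 := by
    rw [map_mul, map_inv₀, val_natCast_eq_one hp hℓ hwd,
      show (12 : ℂ) = ((12 : ℕ) : ℂ) by norm_num, val_natCast_eq_one hp hℓ h12, inv_one, one_mul]
  obtain ⟨lam, hlam⟩ : ∃ x : O, (x : ℂ) = (w : ℂ) * 12⁻¹ :=
    ⟨⟨_, (O.valuation_le_one_iff _).1 hlv.le⟩, rfl⟩
  have hlam0 : ρ lam ≠ 0 := fun e => by
    have := (hρ0 _).1 e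
    rw [hlam, hlv] at this
    exact lt_irrefl _ this
  obtain ⟨U, hU⟩ : ∃ U : SL(2, ℤ) ⧸ Γ → PowerSeries O,
      ∀ i, U i = Dv i - PowerSeries.C lam * (P * S i) := ⟨_, fun _ => rfl⟩
  have hE2 : HasQ (h : ℝ) EisensteinSeries.E2 (P.map O.subtype) := by
    rw [hP, PowerSeries.map_expand, show (FA.Tau.eTwoInt.map (Int.castRingHom O)).map O.subtype =
        FA.Tau.eTwoInt.map (Int.castRingHom ℂ) from PowerSeries.ext fun n => by simp]
    exact hasQ_expand hh0 FA.Tau.hasQ_eTwo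
  -- the series of the Serre derivatives
  have hUq : ∀ i, HasQ (h : ℝ) (conjFun Γ (w + 2) (serreDerivative ((w : ℤ) : ℂ) f) i)
      ((U i).map O.subtype) := fun i => by
    have h1 := (hasQ_deriv_period (hT i)).sub
      ((hE2.mul (Nat.cast_pos.2 (Nat.pos_of_ne_zero hh0)) (hT i)).smul ((w : ℂ) * 12⁻¹))
    rw [conjFun_serre hf]
    convert h1 using 1
    · funext z
      simp only [serreDerivative_apply, Pi.sub_apply, Pi.smul_apply, Pi.mul_apply, smul_eq_mul,
        Int.cast_natCast]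
      ring
    · rw [hU, map_sub, map_mul, map_mul, PowerSeries.map_C, hS,
        show O.subtype lam = (w : ℂ) * 12⁻¹ from hlam, PowerSeries.smul_eq_C_mul]
      congr 1
      refine PowerSeries.ext fun n => ?_
      rw [PowerSeries.coeff_map, hD, PowerSeries.coeff_mk, map_mul, map_mul, map_natCast,
        show O.subtype hinv = (h : ℂ)⁻¹ from hhinv,
        show O.subtype (PowerSeries.coeff n (S i)) = PowerSeries.coeff n (T i) from hScoe i n]
  -- their reductions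
  obtain ⟨c, hc⟩ : ∃ c : SL(2, ℤ) ⧸ Γ → IsLocalRing.ResidueField O,
      ∀ i, c i = ρ (PowerSeries.coeff 0 (S i)) := ⟨_, fun _ => rfl⟩
  obtain ⟨E, hE⟩ : ∃ E, E = PowerSeries.expand h hh0 ((FA.SwinnertonDyer.e2 ℓ).map ι) := ⟨_, rfl⟩
  have hSred : ∀ i, (S i).map ρ = PowerSeries.C (c i) := fun i => PowerSeries.ext fun n => by
    rw [PowerSeries.coeff_map, PowerSeries.coeff_C]
    split_ifs with hn
    · rw [hn, hc]
    · rw [hρ0, hScoe]
      exact hpos i n hn
  have hDred : ∀ i, (Dv i).map ρ = 0 := fun i => PowerSeries.ext fun n => by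
    rw [PowerSeries.coeff_map, hD, map_mul, map_zero]
    rcases eq_or_ne n 0 with rfl | hn
    · simp
    · rw [(hρ0 (PowerSeries.coeff n (S i))).2 (by rw [hScoe]; exact hpos i n hn), mul_zero]
  have hPred : P.map ρ = E := by
    rw [hP, hE, PowerSeries.map_expand, FA.SwinnertonDyer.e2]
    congr 1
    refine PowerSeries.ext fun n => ?_
    simp [hι]
  have hUred : ∀ i, -((U i).map ρ) = PowerSeries.C (ρ lam * c i) * E := fun i => by
    rw [hU, map_sub, map_mul, map_mul, hDred, hSred, hPred, PowerSeries.map_C, map_mul, zero_sub,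
      neg_neg]
    ring
  obtain ⟨t₀, ht₀⟩ : ∃ t₀ : Finset (SL(2, ℤ) ⧸ Γ), t₀ = Finset.univ.filter fun i => c i ≠ 0 :=
    ⟨_, rfl⟩
  have hi₀ : i₀ ∈ t₀ := by
    rw [ht₀, Finset.mem_filter]
    refine ⟨Finset.mem_univ _, fun e => ?_⟩
    rw [hc, hρ0, hScoe, hone] at e
    exact lt_irrefl _ e
  obtain ⟨d, hd⟩ : ∃ d, d = t₀.card := ⟨_, rfl⟩
  have hd0 : 0 < d := hd ▸ Finset.card_pos.2 ⟨i₀, hi₀⟩
  obtain ⟨Y, hY⟩ : ∃ Y : PowerSeries O,
      Y = ∑ t ∈ Finset.powersetCard d Finset.univ, ∏ i ∈ t, -(U i) := ⟨_, rfl⟩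
  have hlv1 := isLv_negProd (isMF_serre hf) d
  obtain ⟨G, hG⟩ : ∃ G : ℍ → ℂ, G = ∑ t ∈ Finset.powersetCard d Finset.univ,
      negProd Γ (w + 2) (serreDerivative ((w : ℤ) : ℂ) f) t := ⟨_, rfl⟩
  rw [← hG] at hlv1
  have hYq : HasQ (h : ℝ) G (Y.map O.subtype) := by
    rw [hG, hY, map_sum]
    refine HasQ.sum _ fun t _ => ?_
    rw [map_prod, negProd]
    exact HasQ.prod (Nat.cast_pos.2 (Nat.pos_of_ne_zero hh0)) _ fun i _ => by
      rw [map_neg]
      exact (hUq i).neg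
  have hYe : Y.map O.subtype = PowerSeries.expand h hh0 (qe G) :=
    hYq.unique (Nat.cast_pos.2 (Nat.pos_of_ne_zero hh0)) (hasQ_expand hh0 hlv1.hasQ)
  obtain ⟨u, hu⟩ : ∃ u, u = ∏ i ∈ t₀, (ρ lam * c i) := ⟨_, rfl⟩
  have hu0 : u ≠ 0 := hu ▸ Finset.prod_ne_zero_iff.2 fun i hi => by
    rw [ht₀, Finset.mem_filter] at hi
    exact mul_ne_zero hlam0 hi.2
  have hYred : Y.map ρ = PowerSeries.C u * E ^ d := by
    rw [hY, map_sum, Finset.sum_eq_single t₀]
    · rw [map_prod, hu, map_prod PowerSeries.C, hd, ← Finset.prod_const, ← Finset.prod_mul_distrib]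
      exact Finset.prod_congr rfl fun i _ => by rw [map_neg, hUred]
    · intro t ht hne
      have hcard : t.card = t₀.card := (Finset.mem_powersetCard.1 ht).2.trans hd
      obtain ⟨i, hit, hi0⟩ : ∃ i ∈ t, c i = 0 := by
        by_contra hcon'
        push Not at hcon'
        exact hne (Finset.eq_of_subset_of_card_le
          (fun i hi => ht₀ ▸ Finset.mem_filter.2 ⟨Finset.mem_univ _, hcon' i hi⟩) hcard.ge)
      rw [map_prod]
      exact Finset.prod_eq_zero hit (by rw [map_neg, hUred, hi0, mul_zero, map_zero, zero_mul])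
    · exact fun hn => absurd (Finset.mem_powersetCard.2 ⟨Finset.subset_univ _, hd.symm⟩) hn
  obtain ⟨B, hB⟩ : ∃ B : PowerSeries O, ∀ m, PowerSeries.coeff m B = PowerSeries.coeff (h * m) Y :=
    ⟨PowerSeries.mk fun m => PowerSeries.coeff (h * m) Y, fun m => PowerSeries.coeff_mk _ _⟩
  have hBq : B.map O.subtype = qe G := PowerSeries.ext fun m => by
    rw [PowerSeries.coeff_map, hB, ← PowerSeries.coeff_map, hYe, PowerSeries.coeff_expand_mul]
  have hform : FA.SwinnertonDyer.IsFormModP ℓ (d * (w + 2)) (FA.SwinnertonDyer.e2 ℓ ^ d) := by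
    refine isFormModP_of_reduction h5 hℓ hlv1 hBq hu0 (PowerSeries.ext fun m => ?_)
    rw [← hρ, ← hι, PowerSeries.coeff_map, hB, ← PowerSeries.coeff_map, hYred, hE,
      PowerSeries.coeff_C_mul, PowerSeries.coeff_C_mul, ← map_pow (PowerSeries.expand h hh0),
      PowerSeries.coeff_expand_mul, map_pow (PowerSeries.map ι)]
  have he2 : FA.SwinnertonDyer.e2 ℓ ≠ 0 := fun e => by
    simpa [FA.SwinnertonDyer.e2, FA.Tau.eTwoInt] using congrArg (PowerSeries.coeff 0) e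
  have hform1 : FA.SwinnertonDyer.IsFormModP ℓ (ℓ + 1) (FA.SwinnertonDyer.e2 ℓ) := by
    rw [← FA.SwinnertonDyer.phi_dOp_hassePoly h5]
    have h' := FA.SwinnertonDyer.dOp_isob (FA.SwinnertonDyer.isob_hassePoly (p := ℓ) h5)
    rw [show ℓ - 1 + 2 = ℓ + 1 by omega] at h'
    exact FA.SwinnertonDyer.isFormModP_phi h'
  have hle := (FA.SwinnertonDyer.filtration_pow h5 he2
    (FA.SwinnertonDyer.isLeast_succ h5 hform1 he2) d).2 hform
  have hlt : d * (w + 2) < d * (ℓ + 1) := Nat.mul_lt_mul_of_pos_left (by omega) hd0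
  omega

/-- **The constant terms are bounded by the coefficients of positive index**: at some cusp some
coefficient of positive index is at least as large as a given non-zero constant. -/
theorem exists_coeff_ge [Γ.FiniteIndex] (hp : ℓ.Prime) (hℓ : O.valuation (ℓ : ℂ) < 1) (h5 : 5 ≤ ℓ)
    (hw : w ≠ 0) (hwl : w + 2 ≤ ℓ) (hf : IsMF Γ w f) (hh : ¬ℓ ∣ h)
    (S : SL(2, ℤ) → PowerSeries ℂ) (hS : ∀ A, HasQ (h : ℝ) (f ∣[(w : ℤ)] A) (S A))
    {A : SL(2, ℤ)} (hA : PowerSeries.coeff 0 (S A) ≠ 0) :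
    ∃ (B : SL(2, ℤ)) (n : ℕ), n ≠ 0 ∧
      O.valuation (PowerSeries.coeff 0 (S A)) ≤ O.valuation (PowerSeries.coeff n (S B)) := by
  classical
  by_contra hcon
  push Not at hcon
  have hh0 : (0 : ℝ) < (h : ℝ) :=
    Nat.cast_pos.2 (Nat.pos_of_ne_zero fun e => hh (e ▸ dvd_zero ℓ))
  obtain ⟨i₀, hi₀⟩ := Finite.exists_max fun i : SL(2, ℤ) ⧸ Γ =>
    O.valuation (PowerSeries.coeff 0 (S (Quotient.out i)⁻¹))
  have hAS : S A = S (Quotient.out (QuotientGroup.mk A⁻¹ : SL(2, ℤ) ⧸ Γ))⁻¹ := by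
    refine (hS A).unique hh0 ?_
    have := hS (Quotient.out (QuotientGroup.mk A⁻¹ : SL(2, ℤ) ⧸ Γ))⁻¹
    rwa [← conjFun, hf.conjFun_mk, inv_inv] at this
  have hmax : O.valuation (PowerSeries.coeff 0 (S A)) ≤
      O.valuation (PowerSeries.coeff 0 (S (Quotient.out i₀)⁻¹)) := hAS ▸ hi₀ _
  obtain ⟨c, hc⟩ : ∃ c, c = PowerSeries.coeff 0 (S (Quotient.out i₀)⁻¹) := ⟨_, rfl⟩
  rw [← hc] at hmax
  have hv0 : 0 < O.valuation c :=
    ((Valuation.ne_zero_iff _).2 hA).bot_lt.trans_le hmax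
  have hf' : IsMF Γ w (c⁻¹ • f) :=
    ⟨fun g hg => by rw [ModularForm.SL_smul_slash, hf.inv g hg], hf.hol.const_smul _,
      hf.bdd.smul _⟩
  refine not_small hp hℓ h5 hw hwl hf' hh (fun i => c⁻¹ • S (Quotient.out i)⁻¹) (fun i => ?_)
    (fun i n hn => ?_) (fun i => ?_) (i₀ := i₀) ?_
  · rw [conjFun, ModularForm.SL_smul_slash]
    exact (hS _).smul _
  · rw [PowerSeries.coeff_smul, smul_eq_mul, map_mul, map_inv₀, inv_mul_lt_iff₀ hv0, mul_one]
    exact (hcon _ n hn).trans_le hmax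
  · rw [PowerSeries.coeff_smul, smul_eq_mul, map_mul, map_inv₀, inv_mul_le_iff₀ hv0, mul_one, hc]
    exact hi₀ i
  · rw [PowerSeries.coeff_smul, smul_eq_mul, map_mul, map_inv₀, ← hc, inv_mul_cancel₀ hv0.ne']

/-- **Integrality**: if the coefficients of positive index at every cusp have value at most `γ`,
so do the constants. -/
theorem constant_le [Γ.FiniteIndex] (hp : ℓ.Prime) (hℓ : O.valuation (ℓ : ℂ) < 1) (h5 : 5 ≤ ℓ)
    (hw : w ≠ 0) (hwl : w + 2 ≤ ℓ) (hf : IsMF Γ w f) (hh : ¬ℓ ∣ h)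
    (S : SL(2, ℤ) → PowerSeries ℂ) (hS : ∀ A, HasQ (h : ℝ) (f ∣[(w : ℤ)] A) (S A))
    {γ : O.ValueGroup} (hγ : ∀ B n, n ≠ 0 → O.valuation (PowerSeries.coeff n (S B)) ≤ γ)
    (A : SL(2, ℤ)) : O.valuation (PowerSeries.coeff 0 (S A)) ≤ γ := by
  rcases eq_or_ne (PowerSeries.coeff 0 (S A)) 0 with h0 | h0
  · rw [h0, map_zero]
    exact zero_le
  · obtain ⟨B, n, hn, hle⟩ := exists_coeff_ge hp hℓ h5 hw hwl hf hh S hS h0
    exact hle.trans (hγ B n hn)

end FA.KlingenIntegral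

end
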