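import Fermat.Agent.KlingenIntegral.Core
import Fermat.Agent.WeightLevel.Criterion
import Fermat.Agent.KlingenTwo.Form
import Fermat.Agent.KlingenZero.Form

/-!
# The Eisenstein series at every cusp, and the size of the normalised values

At every cusp the series of a periodic function is a constant plus the factor times a series in
`q ^ (1 / N)` whose coefficients, times `(|d| N J) ^ (k - 1)`, are integral at every prime not
dividing `N`. Hence so is the normalised value times that power, if the weight `k n` is admissible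
at the prime: for instance the prime exceeds `k n + 1`.
In weight two this needs only `n ≥ 2`: the middle part of Hecke's series then tends to zero.
-/

set_option autoImplicit false
set_option linter.unusedSectionVars false
set_option linter.style.haveILetI false

noncomputable section

open NumberField InfinitePlace Module Filter
open UpperHalfPlane hiding I
open Complex (I)
open scoped Real nonZeroDivisors Classical Topology MatrixGroups Manifold ModularForm FourierTransform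

namespace FA.KlingenIntegral

open FA.HeckeFE FA.SiegelKlingen FA.KlingenRay FA.Eis
open FA.HeckeCharFE (trChar norm_trChar)
open FA.KlingenZero (DualPair wHat limTerm limSum)
open FA.PadicEulerFactor (pMul mem_pMul add_mem_lat int_mul_mem)
open CongruenceSubgroup

variable {K : Type*} [Field K] [NumberField K] [IsTotallyReal K]
variable (J : (FractionalIdeal (𝓞 K)⁰ K)ˣ) (N : ℕ) [NeZero N] (k : ℕ)

/-- `N J` times `|d|`, the inverse of the norm of the dual ideal. -/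
def dualScale : ℚ :=
  FractionalIdeal.absNorm (J : FractionalIdeal (𝓞 K)⁰ K) * ((discr K).natAbs : ℚ)

/-- A term at a cusp, without the exponential. -/
def cuspTerm (Ψ : K × K → ℂ) (p : DualPair J N) : ℂ :=
  ((sgnN p.1.1 ^ k * coef k p.1.1 (p.2 : K) : ℚ) : ℂ) * wHat J N Ψ p.1.1 p.2

variable {J N k}

theorem norm_natCast_mul (ν : K) : |Algebra.norm ℚ ((N : K) * ν)| =
    (N : ℚ) ^ finrank ℚ K * |Algebra.norm ℚ ν| := by
  rw [show (N : K) = algebraMap ℚ K (N : ℚ) by rw [map_natCast], map_mul, Algebra.norm_algebraMap,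
    abs_mul, abs_pow, Nat.abs_cast]

theorem remb_natCast_mul (w : InfinitePlace K) (ν : K) :
    remb w ((N : K) * ν) = (N : ℝ) * remb w ν := by
  rw [map_mul, map_natCast]

theorem pos_scale {c ν : K} (h : ∀ w : InfinitePlace K, 0 < remb w c * remb w ν)
    (w : InfinitePlace K) : 0 < remb w c * remb w ((N : K) * ν) := by
  rw [remb_natCast_mul, mul_left_comm]
  exact mul_pos (Nat.cast_pos.2 (NeZero.pos N)) (h w)

theorem trace_scale (c ν : K) :
    Algebra.trace ℚ K (c * ((N : K) * ν)) = (N : ℚ) * Algebra.trace ℚ K (c * ν) := by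
  rw [mul_left_comm, ← nsmul_eq_mul, map_nsmul, nsmul_eq_mul]

theorem expTerm_scale (τ : ℍ) (c ν : K) :
    expTerm ((FA.KlingenTwo.scalePt N τ : ℍ) : ℂ) c ((N : K) * ν) = expTerm (τ : ℂ) c ν := by
  rw [expTerm, expTerm, trace_scale]
  congr 1
  have hN : (N : ℂ) ≠ 0 := Nat.cast_ne_zero.2 (NeZero.ne N)
  show 2 * π * I * ((τ : ℂ) / (N : ℂ)) * _ = _
  push_cast
  field_simp

variable (J N) in
/-- A dual element of `N J` gives one of `J`. -/
theorem exists_dual_map : ∃ i : DualPair J N → SubRep J 1 × ↥(dualIdeal (pMul J 1) : Set K),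
    Function.Injective i ∧ ∀ p, ((i p).1.1.1 : K) = p.1.1 ∧ ((i p).2 : K) = (N : K) * p.2 := by
  have h1 : ∀ p : DualPair J N, (p.1.1 : K) ∈ (pMul J 1 : Set K) := fun p => by
    rw [mem_pMul, Nat.cast_one, div_one]
    exact p.1.2.1
  have h2 : ∀ p : DualPair J N, (N : K) * p.2 ∈ (dualIdeal (pMul J 1) : Set K) := fun p => by
    refine (FractionalIdeal.mem_dual (A := ℤ) (K := ℚ) (pMul J 1).ne_zero).2 fun x hx => ?_
    exact (FractionalIdeal.mem_dual (A := ℤ) (K := ℚ) J.ne_zero).1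
      (FA.KlingenTwo.natCast_mul_mem_dual J N p.2.2) x (mem_of_mem_pMul J 1 hx)
  refine ⟨fun p => (⟨p.1, h1 p⟩, ⟨_, h2 p⟩), fun a b e => ?_, fun p => ⟨rfl, rfl⟩⟩
  have e1 : (a.1 : Rep J) = b.1 := congrArg (fun q => q.1.1) e
  have e2 : (N : K) * (a.2 : K) = (N : K) * b.2 := congrArg (fun q => (q.2 : K)) e
  exact Prod.ext e1 (Subtype.ext (mul_left_cancel₀ (Nat.cast_ne_zero.2 (NeZero.ne N)) e2))

theorem summable_cuspTerm {Ψ : K × K → ℂ} (hΨ : IsWeight J N k Ψ) (hk : 3 ≤ k) (τ : ℍ) :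
    Summable fun p : DualPair J N => cuspTerm J N k Ψ p * expTerm (τ : ℂ) p.1.1 p.2 := by
  obtain ⟨M, hM0, hM⟩ := FA.KlingenTwo.exists_wHat_bound hΨ
  obtain ⟨i, hinj, hi⟩ := exists_dual_map J N
  refine Summable.of_norm_bounded
    (((summable_coef J 1 hk (FA.KlingenTwo.scalePt N τ)).comp_injective hinj).mul_left M) fun p => ?_
  rw [Function.comp_apply, (hi p).1, (hi p).2, expTerm_scale, norm_mul, cuspTerm, norm_mul,
    norm_mul, Rat.cast_mul, norm_mul]
  have hsgn : ‖((sgnN (p.1.1 : K) ^ k : ℚ) : ℂ)‖ = 1 := by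
    refine Complex.norm_eq_one_of_pow_eq_one (n := 2) ?_ two_ne_zero
    rw [sq, ← Rat.cast_mul, sgnN_pow_sq k (Rep.ne_zero J p.1), Rat.cast_one]
  have hcoef : ‖((coef k p.1.1 (p.2 : K) : ℚ) : ℂ)‖ ≤
      ‖((coef k p.1.1 ((N : K) * p.2) : ℚ) : ℂ)‖ := by
    rw [coef, coef]
    by_cases h : ∀ w : InfinitePlace K, 0 < remb w p.1.1 * remb w (p.2 : K)
    · rw [if_pos h, if_pos (pos_scale h), ← Complex.ofReal_ratCast, ← Complex.ofReal_ratCast,
        Complex.norm_real, Complex.norm_real, Real.norm_of_nonneg (Rat.cast_nonneg.2 (by positivity)),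
        Real.norm_of_nonneg (Rat.cast_nonneg.2 (by positivity)), Rat.cast_le, norm_natCast_mul]
      exact pow_le_pow_left₀ (abs_nonneg _) (le_mul_of_one_le_left (abs_nonneg _)
        (one_le_pow₀ (by exact_mod_cast NeZero.pos N))) _
    · rw [if_neg h, Rat.cast_zero, norm_zero]
      exact norm_nonneg _
  rw [hsgn, one_mul, mul_comm ‖((coef k _ _ : ℚ) : ℂ)‖ ‖wHat J N Ψ _ _‖, mul_assoc]
  exact mul_le_mul (hM _ p.1.2.1 _) (mul_le_mul_of_nonneg_right hcoef (norm_nonneg _))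
    (by positivity) hM0

/-- **The expansion of the series of any weight.** -/
theorem hasSum_psiSum {Ψ : K × K → ℂ} (hΨ : IsWeight J N k Ψ) (hk : 3 ≤ k) (τ : ℍ) :
    HasSum (fun p : DualPair J N => cuspTerm J N k Ψ p * expTerm (τ : ℂ) p.1.1 p.2)
      ((factor (pMul J N) k)⁻¹ *
        (psiSum J k Ψ (τ : ℂ) - perSum J k fun d => Ψ (0, d))) := by
  obtain ⟨B, hB⟩ := hΨ.summable_and_bound hk τ.im_pos
  obtain ⟨hsumm, -⟩ := hB (τ : ℂ) le_rfl
  obtain ⟨e, he⟩ := exists_split J N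
  have hleft := hsumm.comp_injective (i := Sum.inl) Sum.inl_injective
  have hright := hsumm.comp_injective (i := Sum.inr) Sum.inr_injective
  have hinner : ∀ c : Rep J, HasSum (fun ν : ↥(dualIdeal (pMul J N) : Set K) =>
      cuspTerm J N k Ψ (c, ν) * expTerm (τ : ℂ) c.1 ν)
      ((factor (pMul J N) k)⁻¹ *
        ∑' d : ↥(J : Set K), pairTerm k Ψ (τ : ℂ) (c.1, (d : K))) := fun c => by
    have hval : ∑' d : ↥(J : Set K), pairTerm k Ψ (τ : ℂ) (c.1, (d : K)) =
        ∑ r ∈ residues J N,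
          Ψ (c.1, r) * ∑' y : ↥(pMul J N : Set K), eisTerm k (τ : ℂ) c.1 (r + y) := by
      have hall : Summable fun d : ↥(J : Set K) => pairTerm k Ψ (τ : ℂ) (c.1, (d : K)) :=
        hleft.comp_injective (i := fun d => (c, d)) fun a b hab => (Prod.ext_iff.1 hab).2
      have hall' : Summable fun p : {r // r ∈ residues J N} × ↥(pMul J N : Set K) =>
          pairTerm k Ψ (τ : ℂ) (c.1, (e p : K)) := e.summable_iff.2 hall
      rw [← e.tsum_eq fun d : ↥(J : Set K) => pairTerm k Ψ (τ : ℂ) (c.1, (d : K)),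
        Summable.tsum_prod hall', tsum_fintype, ← Finset.sum_coe_sort (residues J N)]
      refine Finset.sum_congr rfl fun r _ => ?_
      rw [← tsum_mul_left]
      refine tsum_congr fun y => ?_
      have h := hΨ.periodic c.1 c.2.1 r.1 (residues_mem J N r.2) 0 (zero_mem_ideal (pMul J N))
        (y : K) y.2
      rw [add_zero] at h
      rw [pairTerm, he (r, y), h]
    rw [hval, Finset.mul_sum, Finset.sum_congr rfl fun r _ => mul_left_comm _ (Ψ (c.1, r)) _]
    refine HasSum.congr_fun (hasSum_sum fun r _ => (lipschitz_shift (pMul J N) (by omega : 2 ≤ k)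
      (Rep.ne_zero J c) r τ).2.mul_left (Ψ (c.1, r))) fun ν => ?_
    rw [cuspTerm, wHat, hatSum, Finset.mul_sum, Finset.sum_mul]
    exact Finset.sum_congr rfl fun r _ => by ring
  have htot := (summable_cuspTerm hΨ hk τ).hasSum
  rw [(summable_cuspTerm hΨ hk τ).tsum_prod, tsum_congr fun c => (hinner c).tsum_eq,
    tsum_mul_left] at htot
  convert htot using 2
  rw [psiSum, Summable.tsum_sum hleft hright, sub_eq_iff_eq_add]
  congr 1
  · exact hleft.tsum_prod
  · refine tsum_congr fun d => ?_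
    rw [repPair, pairTerm, eisTerm, ← Complex.ofReal_ratCast, ← prod_remb, Complex.ofReal_prod,
      ← Finset.prod_pow]
    congr 2
    exact Finset.prod_congr rfl fun w _ => by simp

section Valuation

variable {O : ValuationSubring ℂ} {ℓ : ℕ}

theorem val_sign {q : ℚ} (hq : q * q = 1) : O.valuation (q : ℂ) = 1 :=
  val_root two_ne_zero (by rw [sq, ← Rat.cast_mul, hq, Rat.cast_one])

theorem val_trChar {ν x : K} (hν : ν ∈ (dualIdeal (pMul J N) : Set K)) (hx : x ∈ (J : Set K)) :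
    O.valuation (trChar (ν * x)) = 1 := by
  refine val_root (NeZero.ne N) ?_
  rw [trChar, ← Complex.exp_nat_mul]
  obtain ⟨z, hz⟩ := (FractionalIdeal.mem_dual (A := ℤ) (K := ℚ) (pMul J N).ne_zero).1 hν
    ((N : K) * x) (mul_mem_pMul J N hx)
  have e : (N : ℚ) * Algebra.trace ℚ K (ν * x) = (z : ℚ) := by
    rw [← trace_scale, ← eq_intCast (algebraMap ℤ ℚ), hz, Algebra.traceForm_apply]
  rw [show (N : ℂ) * (2 * π * I * ((Algebra.trace ℚ K (ν * x) : ℚ) : ℂ)) =
    2 * π * I * ((((N : ℚ) * Algebra.trace ℚ K (ν * x) : ℚ)) : ℂ) by push_cast; ring, e,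
    Rat.cast_intCast, mul_comm]
  exact Complex.exp_int_mul_two_pi_mul_I z

theorem val_wHat {Ψ : K × K → ℂ} (hval : ∀ c ∈ (J : Set K), ∀ d ∈ (J : Set K),
    O.valuation (Ψ (c, d)) ≤ 1) {c ν : K} (hc : c ∈ (J : Set K))
    (hν : ν ∈ (dualIdeal (pMul J N) : Set K)) : O.valuation (wHat J N Ψ c ν) ≤ 1 := by
  refine Valuation.map_sum_le _ fun r hr => ?_
  rw [map_mul, val_trChar hν (residues_mem J N hr), mul_one]
  exact hval c hc r (residues_mem J N hr)

theorem absNorm_dualIdeal : FractionalIdeal.absNorm (dualIdeal J : FractionalIdeal (𝓞 K)⁰ K) =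
    (dualScale J)⁻¹ := by
  have h := normR_dualIdeal J
  rw [normR, normR] at h
  rw [dualScale]
  refine Rat.cast_injective (α := ℝ) (h.trans ?_)
  push_cast
  rw [Nat.cast_natAbs, Int.cast_abs]

theorem dualScale_pos : 0 < dualScale J := by
  refine mul_pos ?_ (Nat.cast_pos.2 (Int.natAbs_pos.2 (discr_ne_zero K)))
  exact lt_of_le_of_ne (FractionalIdeal.absNorm_nonneg _)
    fun h => J.ne_zero (FractionalIdeal.absNorm_eq_zero_iff.1 h.symm)

theorem val_norm_scale (hp : ℓ.Prime) (hℓ : O.valuation (ℓ : ℂ) < 1) (hN : ¬ℓ ∣ N) {ν : K}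
    (hν : ν ∈ (dualIdeal (pMul J N) : Set K)) :
    O.valuation ((|Algebra.norm ℚ ν| * dualScale J : ℚ) : ℂ) ≤ 1 := by
  obtain ⟨y, hy⟩ : ∃ y : K, y = (N : K) * ν := ⟨_, rfl⟩
  have hyJ : y ∈ (dualIdeal J : Set K) := hy ▸ FA.KlingenTwo.natCast_mul_mem_dual J N hν
  obtain ⟨A, hA⟩ : ∃ A : Ideal (𝓞 K), (A : FractionalIdeal (𝓞 K)⁰ K) =
      FractionalIdeal.spanSingleton (𝓞 K)⁰ y * (dualIdeal J : FractionalIdeal (𝓞 K)⁰ K)⁻¹ := by
    refine FractionalIdeal.le_one_iff_exists_coeIdeal.1 ?_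
    refine (mul_le_mul' (FractionalIdeal.spanSingleton_le_iff_mem.2 hyJ) le_rfl).trans ?_
    rw [mul_inv_cancel₀ (dualIdeal J).ne_zero]
  have e := congrArg FractionalIdeal.absNorm hA
  rw [map_mul, map_inv₀, absNorm_dualIdeal, inv_inv, FractionalIdeal.coeIdeal_absNorm,
    FractionalIdeal.absNorm_span_singleton, hy, norm_natCast_mul, mul_assoc] at e
  have hv : O.valuation (((N : ℚ) ^ finrank ℚ K : ℚ) : ℂ) = 1 := by
    rw [Rat.cast_pow, Rat.cast_natCast, map_pow, val_natCast_eq_one hp hℓ hN, one_pow]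
  have h1 := val_natCast_le (O := O) (Ideal.absNorm A)
  rwa [← Rat.cast_natCast, e, Rat.cast_mul, map_mul, hv, one_mul] at h1

variable (J N) in
/-- A series over the dual pairs, level by level. -/
theorem exists_fibre_coeff : ∃ Fib : ℕ → Finset (DualPair J N), Fib 0 = ∅ ∧
    (∀ n, ∀ p ∈ Fib n, ∀ w : InfinitePlace K, 0 < remb w p.1.1 * remb w (p.2 : K)) ∧
    ∀ (T : DualPair J N → ℂ) (G : ℍ → ℂ),
      (∀ p, ¬(∀ w : InfinitePlace K, 0 < remb w p.1.1 * remb w (p.2 : K)) → T p = 0) →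
      (∀ τ : ℍ, HasSum (fun p : DualPair J N => T p * expTerm (τ : ℂ) p.1.1 p.2) (G τ)) →
      HasQ (N : ℝ) G (PowerSeries.mk fun n => ∑ p ∈ Fib n, T p) := by
  obtain ⟨i, hinj, hi⟩ := exists_dual_map J N
  let P := {p : DualPair J N // ∀ w : InfinitePlace K, 0 < remb w p.1.1 * remb w (p.2 : K)}
  obtain ⟨j, hj⟩ : ∃ j : P → Terms J 1, ∀ y, (j y).1 = i y.1 :=
    ⟨fun y => ⟨i y.1, fun w => by rw [(hi y.1).1, (hi y.1).2]; exact pos_scale y.2 w⟩,
      fun _ => rfl⟩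
  have hjinj : Function.Injective j := fun a b e =>
    Subtype.ext (hinj (by rw [← hj, ← hj, e]))
  obtain ⟨lev, hlev⟩ : ∃ lev : P → ℕ, ∀ y, lev y = termLevel J 1 (j y) := ⟨_, fun _ => rfl⟩
  have hfin : ∀ n, {y : P | lev y = n}.Finite := fun n => by
    refine ((finite_termLevel (J := J) (N := 1) (k := 3) le_rfl n).preimage hjinj.injOn).subset
      fun y (hy : lev y = n) => ?_
    show termLevel J 1 (j y) = n
    rw [← hlev, hy]
  refine ⟨fun n => (hfin n).toFinset.image Subtype.val, ?_, fun n p hp => ?_,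
    fun T G hT hsum τ => ?_⟩
  · rw [Finset.image_eq_empty, Finset.eq_empty_iff_forall_notMem]
    intro y hy
    rw [Set.Finite.mem_toFinset] at hy
    exact (termLevel_spec (j y)).2 ((hlev _).symm.trans hy)
  · obtain ⟨y, -, rfl⟩ := Finset.mem_image.1 hp
    exact y.2
  · have hs : HasSum (fun y : P => T y.1 * expTerm (τ : ℂ) y.1.1.1 y.1.2) (G τ) := by
      refine ((hasSum_subtype_iff_of_support_subset
        (s := {p : DualPair J N | ∀ w : InfinitePlace K, 0 < remb w p.1.1 * remb w (p.2 : K)})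
        fun p hp' => ?_).2 (hsum τ))
      by_contra hcon
      refine hp' ?_
      rw [Set.mem_ofPred_eq] at hcon
      simp only [hT p hcon, zero_mul]
    rw [← (Equiv.sigmaFiberEquiv lev).hasSum_iff] at hs
    refine hs.sigma fun n => ?_
    have : Fintype {y : P // lev y = n} := (hfin n).fintype
    convert hasSum_fintype _ using 1
    rw [PowerSeries.coeff_mk, Finset.sum_image fun _ _ _ _ e => Subtype.ext e,
      Finset.sum_subtype (p := fun y : P => lev y = n) _ (fun y => Set.Finite.mem_toFinset _),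
      Finset.sum_mul]
    refine Finset.sum_congr rfl fun y _ => ?_
    simp only [Function.comp_apply, Equiv.sigmaFiberEquiv_apply]
    congr 1
    have hs' := (termLevel_spec (j y.1)).1
    rw [← hlev, y.2, hj, (hi y.1.1).1, (hi y.1.1).2, trace_scale] at hs'
    rw [expTerm, Function.Periodic.qParam, ← Complex.exp_nat_mul]
    congr 1
    have hN : (N : ℂ) ≠ 0 := Nat.cast_ne_zero.2 (NeZero.ne N)
    have hs'' := congrArg (Rat.cast : ℚ → ℂ) hs'
    push_cast at hs''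
    rw [hs'']
    push_cast
    field_simp
    exact this

variable (J N) in
/-- The series at a cusp, level by level. -/
theorem exists_fibre : ∃ Fib : ℕ → Finset (DualPair J N), Fib 0 = ∅ ∧
    (∀ n, ∀ p ∈ Fib n, ∀ w : InfinitePlace K, 0 < remb w p.1.1 * remb w (p.2 : K)) ∧
    ∀ (k' : ℕ) (Ψ : K × K → ℂ) (G : ℍ → ℂ), (∀ τ : ℍ, HasSum
      (fun p : DualPair J N => cuspTerm J N k' Ψ p * expTerm (τ : ℂ) p.1.1 p.2) (G τ)) →
      HasQ (N : ℝ) G (PowerSeries.mk fun n => ∑ p ∈ Fib n, cuspTerm J N k' Ψ p) := by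
  obtain ⟨Fib, h0, hpos, hq⟩ := exists_fibre_coeff J N
  refine ⟨Fib, h0, hpos, fun k' Ψ G hsum => hq _ G (fun p hp => ?_) hsum⟩
  simp only [cuspTerm, coef, if_neg hp, mul_zero, Rat.cast_zero, zero_mul]

/-- A term at a cusp with its scale. -/
theorem scale_cuspTerm {Ψ : K × K → ℂ} {p : DualPair J N}
    (hpos : ∀ w : InfinitePlace K, 0 < remb w p.1.1 * remb w (p.2 : K)) :
    ((dualScale J ^ (k - 1) : ℚ) : ℂ) * cuspTerm J N k Ψ p =
      ((sgnN p.1.1 ^ k : ℚ) : ℂ) *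
        ((|Algebra.norm ℚ (p.2 : K)| * dualScale J : ℚ) : ℂ) ^ (k - 1) *
          wHat J N Ψ p.1.1 p.2 := by
  rw [cuspTerm, coef, if_pos hpos]
  push_cast
  ring

/-- **The series at a cusp and its integrality.** -/
theorem exists_series (hp : ℓ.Prime) (hℓ : O.valuation (ℓ : ℂ) < 1) (hN : ¬ℓ ∣ N)
    {Ψ : K × K → ℂ} (hval : ∀ c ∈ (J : Set K), ∀ d ∈ (J : Set K), O.valuation (Ψ (c, d)) ≤ 1)
    {G : ℍ → ℂ} (hsum : ∀ τ : ℍ, HasSum
      (fun p : DualPair J N => cuspTerm J N k Ψ p * expTerm (τ : ℂ) p.1.1 p.2) (G τ)) :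
    ∃ S : PowerSeries ℂ, HasQ (N : ℝ) G S ∧ PowerSeries.coeff 0 S = 0 ∧
      ∀ n, O.valuation (((dualScale J ^ (k - 1) : ℚ) : ℂ) * PowerSeries.coeff n S) ≤ 1 := by
  obtain ⟨Fib, h0, hpos, hq⟩ := exists_fibre J N
  refine ⟨_, hq k Ψ G hsum, by rw [PowerSeries.coeff_mk, h0, Finset.sum_empty], fun n => ?_⟩
  rw [PowerSeries.coeff_mk, Finset.mul_sum]
  refine Valuation.map_sum_le _ fun p hp' => ?_
  rw [scale_cuspTerm (hpos n p hp'), map_mul, map_mul, map_pow,
    val_sign (sgnN_pow_sq k (Rep.ne_zero J p.1)), one_mul]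
  exact mul_le_one' (pow_le_one₀ zero_le (val_norm_scale hp hℓ hN p.2.2))
    (val_wHat hval p.1.2.1 p.2.2)

/-- **The constant at infinity.** -/
theorem val_constant (hp : ℓ.Prime) (hℓ : O.valuation (ℓ : ℂ) < 1) (h5 : 5 ≤ ℓ) (hN : ¬ℓ ∣ N)
    (hk : 1 ≤ k) (hkn : FA.WeightLevel.Admissible ℓ (k * finrank ℚ K)) {F : ℍ → ℂ} {B : PowerSeries ℂ} (hB : HasQ 1 F B)
    (hinv : ∀ g ∈ Gamma1 N, F ∣[((k * finrank ℚ K : ℕ) : ℤ)] g = F)
    (hcusp : ∀ A : SL(2, ℤ), ∃ (C : ℂ) (Ψ : K × K → ℂ),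
      (∀ c ∈ (J : Set K), ∀ d ∈ (J : Set K), O.valuation (Ψ (c, d)) ≤ 1) ∧
      ∀ τ : ℍ, HasSum (fun p : DualPair J N => cuspTerm J N k Ψ p * expTerm (τ : ℂ) p.1.1 p.2)
        ((factor (pMul J N) k)⁻¹ * ((F ∣[((k * finrank ℚ K : ℕ) : ℤ)] A) τ - C))) :
    O.valuation (((dualScale J ^ (k - 1) : ℚ) : ℂ) *
      ((factor (pMul J N) k)⁻¹ * PowerSeries.coeff 0 B)) ≤ 1 := by
  obtain ⟨x, hx⟩ : ∃ x : ℂ,
      x = ((dualScale J ^ (k - 1) : ℚ) : ℂ) * (factor (pMul J N) k)⁻¹ := ⟨_, rfl⟩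
  choose C Ψ hval hsum using hcusp
  choose S hS hS0 hSv using fun A => exists_series hp hℓ hN (hval A) (hsum A)
  have hser : ∀ A, HasQ (N : ℝ) (F ∣[((k * finrank ℚ K : ℕ) : ℤ)] A)
      (PowerSeries.C (C A) + factor (pMul J N) k • S A) := fun A => by
    have h1 := (HasQ.const (N : ℝ) (C A)).add ((hS A).smul (factor (pMul J N) k))
    convert h1 using 1
    funext τ
    simp only [Pi.add_apply, Pi.smul_apply, smul_eq_mul]
    rw [mul_inv_cancel_left₀ (factor_ne_zero (pMul J N) k), add_sub_cancel]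
  have hNpos : (0 : ℝ) < (N : ℝ) := Nat.cast_pos.2 (NeZero.pos N)
  have hmf : IsMF (Gamma1 N) (k * finrank ℚ K) (x • F) :=
    ⟨fun g hg => by rw [ModularForm.SL_smul_slash, hinv g hg], (hB.smul x).mdiff one_pos,
      BddAllCusps.smul (fun A => (hser A).bdd hNpos) x⟩
  have key := FA.WeightLevel.constant_le_adm (O := O) hp hℓ h5 hN
    (Nat.mul_ne_zero (by omega) finrank_pos.ne') hkn FA.WeightLevel.Gamma_le_one hmf
    (fun A => x • (PowerSeries.C (C A) + factor (pMul J N) k • S A))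
    (fun A => by rw [ModularForm.SL_smul_slash]; exact (hser A).smul x) (γ := 1)
    (fun A n hn => by
      rw [PowerSeries.coeff_smul, map_add, PowerSeries.coeff_C, if_neg hn, zero_add,
        PowerSeries.coeff_smul, smul_eq_mul, smul_eq_mul, hx, mul_assoc,
        inv_mul_cancel_left₀ (factor_ne_zero (pMul J N) k)]
      exact hSv A n) 1
  have e : PowerSeries.coeff 0 (PowerSeries.C (C 1) + factor (pMul J N) k • S 1) =
      PowerSeries.coeff 0 B := by
    have h1 := hser 1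
    rw [SlashAction.slash_one] at h1
    rw [h1.unique hNpos (hasQ_expand (NeZero.ne N) hB), PowerSeries.coeff_zero_eq_constantCoeff,
      PowerSeries.constantCoeff_expand]
  rw [PowerSeries.coeff_smul, smul_eq_mul, e, hx, mul_assoc] at key
  exact key

variable {Φ : K → ℂ}

theorem val_lift (hΦ : ∀ d ∈ (J : Set K), O.valuation (Φ d) ≤ 1) (g : SL(2, ℤ)) :
    ∀ c ∈ (J : Set K), ∀ d ∈ (J : Set K), O.valuation (liftW J N Φ (rowMul g (c, d))) ≤ 1 :=
  fun c hc d hd => by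
    rw [liftW]
    split_ifs
    · exact hΦ _ (add_mem_lat (int_mul_mem _ hc) (int_mul_mem _ hd))
    · rw [map_zero]
      exact zero_le

variable (J N k) in
/-- A form with the normalised value as constant and the series of the transforms at the cusps. -/
def EisData (Φ : K → ℂ) : Prop :=
  ∃ (F : ℍ → ℂ) (B : PowerSeries ℂ), HasQ 1 F B ∧
    (∀ g ∈ Gamma1 N, F ∣[((k * finrank ℚ K : ℕ) : ℤ)] g = F) ∧
    (∀ A : SL(2, ℤ), ∃ C : ℂ, ∀ τ : ℍ, HasSum (fun p : DualPair J N =>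
      cuspTerm J N k (fun p => liftW J N Φ (rowMul A⁻¹ p)) p * expTerm (τ : ℂ) p.1.1 p.2)
        ((factor (pMul J N) k)⁻¹ * ((F ∣[((k * finrank ℚ K : ℕ) : ℤ)] A) τ - C))) ∧
    normVal J N k Φ = (factor (pMul J N) k)⁻¹ * PowerSeries.coeff 0 B

theorem eisData_normVal (h : IsPer J N k Φ) (hk : 3 ≤ k) : EisData J N k Φ :=
  ⟨_, _, h.hasQ hk, fun _ hg => h.inv hg, fun A => ⟨_, fun τ => by
    rw [h.slash_eq]
    exact hasSum_psiSum (h.lift.comp A⁻¹) hk τ⟩, by rw [PowerSeries.coeff_mk, if_pos rfl]; rfl⟩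

theorem val_of_eisData (hp : ℓ.Prime) (hℓ : O.valuation (ℓ : ℂ) < 1) (h5 : 5 ≤ ℓ) (hN : ¬ℓ ∣ N)
    (hk : 1 ≤ k) (hkn : FA.WeightLevel.Admissible ℓ (k * finrank ℚ K)) (h : EisData J N k Φ)
    (hΦ : ∀ d ∈ (J : Set K), O.valuation (Φ d) ≤ 1) :
    O.valuation (((dualScale J ^ (k - 1) : ℚ) : ℂ) * normVal J N k Φ) ≤ 1 := by
  obtain ⟨F, B, hB, hinv, hcusp, e⟩ := h
  rw [e]
  exact val_constant (J := J) hp hℓ h5 hN hk hkn hB hinv fun A =>
    (hcusp A).imp fun C hC => ⟨_, val_lift hΦ A⁻¹, hC⟩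

/-- **The normalised value for `k ≥ 3`.** -/
theorem val_normVal (hp : ℓ.Prime) (hℓ : O.valuation (ℓ : ℂ) < 1) (h5 : 5 ≤ ℓ) (hN : ¬ℓ ∣ N)
    (h : IsPer J N k Φ) (hk : 3 ≤ k) (hkn : FA.WeightLevel.Admissible ℓ (k * finrank ℚ K))
    (hΦ : ∀ d ∈ (J : Set K), O.valuation (Φ d) ≤ 1) :
    O.valuation (((dualScale J ^ (k - 1) : ℚ) : ℂ) * normVal J N k Φ) ≤ 1 :=
  val_of_eisData hp hℓ h5 hN (by omega) hkn (eisData_normVal h hk) hΦ

/-- In degree two or more the middle part of Hecke's series of weight two tends to zero. -/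
theorem tendsto_zPart {j : ℕ} {Ψ : K × K → ℂ} (hΨ : IsWeight J N j Ψ) (hn : 2 ≤ finrank ℚ K)
    (τ : ℍ) :
    Tendsto (fun s : ℝ => FA.KlingenTwo.zPart J N Ψ s τ) (𝓝[>] 0) (𝓝 0) := by
  obtain ⟨W, hW0, hW⟩ := FA.KlingenTwo.exists_wHat_bound hΨ
  obtain ⟨M, hM⟩ : ∃ M : ℝ, M = normR J * τ.im ^ finrank ℚ K := ⟨_, rfl⟩
  have hM0 : 0 < M := hM ▸ mul_pos (normR_pos J) (pow_pos τ.im_pos _)
  have hdz : ∀ (s : ℝ) (c : Rep J), dualTerm s τ c.1 0 =
      (((M ^ 2) ^ (-s) / M * ratio J c.1 ^ (-(1 + 2 * s)) : ℝ) : ℂ) *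
        𝓕 (heckeKernel s) 0 ^ finrank ℚ K := fun s c => by
    rw [hM, ← prod_scale, dualTerm, Complex.ofReal_prod, ← card_places, ← Finset.card_univ,
      ← Finset.prod_const, ← Finset.prod_mul_distrib]
    refine Finset.prod_congr rfl fun w _ => ?_
    simp
  have hg := ((Real.continuousAt_const_rpow (pow_ne_zero 2 hM0.ne') (b := -(0 : ℝ))).tendsto.comp
    (tendsto_neg (0 : ℝ))).mono_left (nhdsWithin_le_nhds (s := Set.Ioi 0))
  have hlim := (((hg.div_const M).mul_const ((2 * π) ^ finrank ℚ K)).mul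
    (tendsto_pow_ratioSum J hn)).const_mul (‖((covol (pMul J N) : ℝ) : ℂ)⁻¹‖ * W)
  rw [mul_zero, mul_zero] at hlim
  refine squeeze_zero_norm' ?_ hlim
  filter_upwards [self_mem_nhdsWithin] with s (hs : 0 < s)
  simp only [Function.comp_apply]
  refine (tsum_of_norm_bounded (((summable_ratio J (x := 1 + 2 * s) (by linarith)).mul_left
    (‖((covol (pMul J N) : ℝ) : ℂ)⁻¹‖ * (W * ((M ^ 2) ^ (-s) / M *
      (2 * π * s) ^ finrank ℚ K)))).hasSum) fun c => ?_).trans (le_of_eq ?_)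
  · have hX : 0 ≤ (M ^ 2) ^ (-s) / M * ratio J c.1 ^ (-(1 + 2 * s)) := mul_nonneg (by positivity)
      (Real.rpow_nonneg (zero_le_one.trans (one_le_ratio_rep J c)) _)
    rw [norm_mul, norm_mul, hdz, norm_mul, Complex.norm_real, Real.norm_of_nonneg hX, norm_pow]
    refine (mul_le_mul_of_nonneg_left (mul_le_mul (hW _ c.2.1 _)
      (mul_le_mul_of_nonneg_left (pow_le_pow_left₀ (norm_nonneg _)
        (norm_fourier_heckeKernel_zero hs.le) _) hX)
      (mul_nonneg hX (by positivity)) hW0) (norm_nonneg _)).trans (le_of_eq ?_)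
    ring
  · rw [tsum_mul_left, ← ratioSum, mul_pow]
    ring

theorem tendsto_hSum_two {j : ℕ} {Ψ : K × K → ℂ} (hΨ : IsWeight J N j Ψ) (hn : 2 ≤ finrank ℚ K)
    (τ : ℍ) : Tendsto (fun s : ℝ => FA.KlingenTwo.hSum J Ψ s τ) (𝓝[>] 0)
      (𝓝 (FA.KlingenTwo.eisTwo J N Ψ τ)) := by
  simpa only [sub_add_cancel, add_zero] using
    (FA.KlingenTwo.tendsto_hSum_sub hΨ τ).add (tendsto_zPart hΨ hn τ)

/-- **The series of weight two at every cusp**, `n ≥ 2`. -/
theorem eisTwo_slash {Ψ : K × K → ℂ} (hΨ : IsWeight J N 2 Ψ) (hn : 2 ≤ finrank ℚ K) (g : SL(2, ℤ))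
    (τ : ℍ) : FA.KlingenTwo.eisTwo J N Ψ (g • τ) = denom g τ ^ (2 * finrank ℚ K) *
      FA.KlingenTwo.eisTwo J N (fun p => Ψ (rowMul g⁻¹ p)) τ := by
  refine tendsto_nhds_unique ((tendsto_hSum_two hΨ hn (g • τ)).congr fun s => ?_)
    ((FA.KlingenTwo.tendsto_jTwo g τ).mul (tendsto_hSum_two (hΨ.comp g⁻¹) hn τ))
  rw [FA.KlingenTwo.hSum_smul hΨ]

theorem eisData_two (h : IsPer J N 2 Φ) (hn : 2 ≤ finrank ℚ K) : EisData J N 2 Φ := by
  have hslash : ∀ (A : SL(2, ℤ)) (τ : ℍ),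
      (FA.KlingenTwo.eisPerTwo J N Φ ∣[((2 * finrank ℚ K : ℕ) : ℤ)] A) τ =
        FA.KlingenTwo.eisTwo J N (fun p => liftW J N Φ (rowMul A⁻¹ p)) τ := fun A τ => by
    rw [Eis.slash_sl_apply, FA.KlingenTwo.eisPerTwo, eisTwo_slash h.lift hn, ← Eis.denom_eq_den,
      zpow_neg, zpow_natCast]
    field_simp [denom_ne_zero]
  have hinv : ∀ g ∈ Gamma1 N, FA.KlingenTwo.eisPerTwo J N Φ ∣[((2 * finrank ℚ K : ℕ) : ℤ)] g =
      FA.KlingenTwo.eisPerTwo J N Φ := fun g hg => by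
    funext τ
    rw [hslash]
    refine tendsto_nhds_unique (tendsto_hSum_two (h.lift.comp g⁻¹) hn τ)
      ((tendsto_hSum_two h.lift hn τ).congr fun s => ?_)
    exact tsum_congr fun x => by
      simp only []
      rw [h.lift_rowMul ((Gamma1 N).inv_mem hg) (repPair_mem J x).1 (repPair_mem J x).2.1]
  refine ⟨_, _, FA.KlingenTwo.eisPerTwo_hasQ h, hinv, fun A => ⟨_, fun τ => by
      rw [hslash, FA.KlingenTwo.eisTwo, add_sub_cancel_left]
      refine ((FA.KlingenTwo.summable_limW (h.lift.comp A⁻¹) τ).hasSum.mul_left _).congr_fun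
        fun p => ?_
      rw [FA.KlingenTwo.limW, cuspTerm, inv_mul_cancel_left₀ (factor_ne_zero (pMul J N) 2), sq,
        show sgnN p.1.1 * sgnN p.1.1 = 1 by simpa using sgnN_pow_sq 1 (Rep.ne_zero J p.1), one_mul]
      ring⟩, by rw [PowerSeries.coeff_mk, if_pos rfl]; rfl⟩

/-- **The normalised value for `k = 2`, `n ≥ 2`.** -/
theorem val_normVal_two (hp : ℓ.Prime) (hℓ : O.valuation (ℓ : ℂ) < 1) (h5 : 5 ≤ ℓ) (hN : ¬ℓ ∣ N)
    (h : IsPer J N 2 Φ) (hn : 2 ≤ finrank ℚ K) (hkn : FA.WeightLevel.Admissible ℓ (2 * finrank ℚ K))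
    (hΦ : ∀ d ∈ (J : Set K), O.valuation (Φ d) ≤ 1) :
    O.valuation (((dualScale J ^ (2 - 1) : ℚ) : ℂ) * normVal J N 2 Φ) ≤ 1 :=
  val_of_eisData hp hℓ h5 hN (by omega) hkn (eisData_two h hn) hΦ

/-- **The normalised limit for `k = 1`.** -/
theorem val_normVal1 (hp : ℓ.Prime) (hℓ : O.valuation (ℓ : ℂ) < 1) (h5 : 5 ≤ ℓ) (hN : ¬ℓ ∣ N)
    (h : IsPer J N 1 Φ) (h0 : hatSum J N Φ 0 = 0) {l : ℂ} (hl : FA.KlingenZero.HasLim J Φ l)
    (hkn : FA.WeightLevel.Admissible ℓ (finrank ℚ K)) (hΦ : ∀ d ∈ (J : Set K), O.valuation (Φ d) ≤ 1) :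
    O.valuation (FA.KlingenZero.normVal1 J N l) ≤ 1 := by
  have key := val_constant (J := J) (k := 1) hp hℓ h5 hN le_rfl (by rwa [one_mul])
    (FA.KlingenZero.eisPer1_hasQ (l := l) h)
    (fun g hg => by rw [one_mul]; exact FA.KlingenZero.eisPer1_inv h h0 hl hg) fun A => by
      obtain ⟨C, hC⟩ := FA.KlingenZero.exists_cusp h.lift (FA.KlingenZero.meanZero_liftW h0)
        hl.constPart A
      refine ⟨C, fun p => liftW J N Φ (rowMul A⁻¹ p), val_lift hΦ A⁻¹, fun τ => ?_⟩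
      rw [one_mul, Eis.slash_sl_apply, ← Eis.denom_eq_den, zpow_neg, zpow_natCast, mul_comm _
        (_⁻¹), FA.KlingenZero.eisPer1, hC τ, add_sub_cancel_left]
      obtain ⟨B, hB, hb⟩ := FA.KlingenZero.exists_limTerm_le (h.lift.comp A⁻¹) τ.im_pos
      refine (((Summable.of_norm_bounded hB (hb τ le_rfl)).hasSum).mul_left _).congr_fun fun p => ?_
      rw [limTerm, cuspTerm]
      split_ifs with h2
      · rw [h2, coef, if_neg fun hp' => by simpa using hp' (Classical.arbitrary _)]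
        simp
      · rw [factor, pow_one, one_mul, Nat.sub_self, Nat.factorial_zero, Nat.cast_one, one_pow,
          one_mul, show normR (pMul J N) * √|((discr K : ℤ) : ℝ)| = covol (pMul J N) from rfl,
          inv_div]
        have h1 : ((covol (pMul J N) : ℝ) : ℂ) ≠ 0 := Complex.ofReal_ne_zero.2 (covol_pos _).ne'
        have h3 : (-(2 * (π : ℂ) * I)) ^ finrank ℚ K ≠ 0 := pow_ne_zero _ (by simp [Real.pi_ne_zero])
        field_simp
  rwa [PowerSeries.coeff_mk, if_pos rfl, Nat.sub_self, pow_zero, Rat.cast_one, one_mul] at key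

end Valuation

end FA.KlingenIntegral

end
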