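import Fermat.Agent.KlingenRay.Constant
import Fermat.Agent.Tau.FiltrationModP

/-!
# Level one forms with coefficients in a valuation ring of `ℂ`

Let a valuation ring of `ℂ` lie over a prime `ℓ ≥ 5`. If the series of a level one form has
coefficients in the ring and reduces to a non-zero multiple of a series over `𝔽_ℓ`, the latter is
a form modulo `ℓ` of that weight: the monomials in `E₄, E₆` stay independent modulo `ℓ`, so the
coordinates of the form are integral.
-/

set_option autoImplicit false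
set_option linter.style.haveILetI false

noncomputable section

open UpperHalfPlane hiding I
open scoped MatrixGroups

namespace FA.KlingenIntegral

open FA.Eis

section Valuation

variable {O : ValuationSubring ℂ}

/-- Integers have value at most one. -/
theorem val_intCast_le (z : ℤ) : O.valuation (z : ℂ) ≤ 1 :=
  (O.valuation_le_one_iff _).2 (intCast_mem O.toSubring z)

theorem val_natCast_le (m : ℕ) : O.valuation (m : ℂ) ≤ 1 :=
  (O.valuation_le_one_iff _).2 (natCast_mem O.toSubring m)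

theorem residue_eq_zero (x : O) : IsLocalRing.residue O x = 0 ↔ O.valuation (x : ℂ) < 1 := by
  rw [IsLocalRing.residue_eq_zero_iff, ValuationSubring.valuation_lt_one_iff]

/-- A root of unity has value one. -/
theorem val_root {z : ℂ} {N : ℕ} (hN : N ≠ 0) (hz : z ^ N = 1) : O.valuation z = 1 :=
  ((pow_eq_one_iff (M := O.ValueGroup)).1 (by rw [← map_pow, hz, map_one])).resolve_right hN

variable {ℓ : ℕ}

/-- A prime of the residue characteristic makes the other natural numbers units. -/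
theorem val_natCast_eq_one (hp : ℓ.Prime) (hℓ : O.valuation (ℓ : ℂ) < 1) {m : ℕ} (hm : ¬ℓ ∣ m) :
    O.valuation (m : ℂ) = 1 := by
  refine le_antisymm (val_natCast_le m) ?_
  have hb := Nat.gcd_eq_gcd_ab m ℓ
  rw [Nat.coprime_comm.1 (hp.coprime_iff_not_dvd.2 hm)] at hb
  have e : (1 : ℂ) = (m : ℂ) * (m.gcdA ℓ : ℂ) + (ℓ : ℂ) * (m.gcdB ℓ : ℂ) := by
    exact_mod_cast congrArg (Int.cast : ℤ → ℂ) hb
  have hsmall : O.valuation ((ℓ : ℂ) * (m.gcdB ℓ : ℂ)) < 1 := by
    rw [map_mul]
    exact (mul_le_of_le_one_right' (val_intCast_le _)).trans_lt hℓ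
  by_contra hlt
  have hbig : O.valuation ((m : ℂ) * (m.gcdA ℓ : ℂ)) < 1 := by
    rw [map_mul]
    exact (mul_le_of_le_one_right' (val_intCast_le _)).trans_lt (not_le.1 hlt)
  exact lt_irrefl (1 : O.ValueGroup) (by
    calc (1 : O.ValueGroup) = O.valuation (1 : ℂ) := (map_one _).symm
      _ < 1 := e ▸ Valuation.map_add_lt _ hbig hsmall)

theorem charP_residue (hp : ℓ.Prime) (hℓ : O.valuation (ℓ : ℂ) < 1) :
    CharP (IsLocalRing.ResidueField O) ℓ := by
  refine (CharP.charP_iff_prime_eq_zero hp).2 ?_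
  rw [← map_natCast (IsLocalRing.residue O), residue_eq_zero]
  simpa using hℓ

/-- The map from `𝔽_ℓ` to the residue field. -/
def redHom (hp : ℓ.Prime) (hℓ : O.valuation (ℓ : ℂ) < 1) :
    ZMod ℓ →+* IsLocalRing.ResidueField O :=
  letI := charP_residue hp hℓ
  ZMod.castHom (dvd_refl ℓ) _

theorem redHom_injective (hp : ℓ.Prime) (hℓ : O.valuation (ℓ : ℂ) < 1) :
    Function.Injective (redHom hp hℓ) :=
  haveI := Fact.mk hp
  (redHom hp hℓ).injective

theorem redHom_comp (hp : ℓ.Prime) (hℓ : O.valuation (ℓ : ℂ) < 1) :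
    (redHom hp hℓ).comp (Int.castRingHom (ZMod ℓ)) =
      (IsLocalRing.residue O).comp (Int.castRingHom O) :=
  RingHom.ext_int _ _

end Valuation

open FA.SwinnertonDyer FA.Tau MvPolynomial in
/-- The monomials of one weight are independent modulo `ℓ`. -/
theorem exists_phi_sum {ℓ : ℕ} [Fact ℓ.Prime] {W : ℕ}
    (s : Finset {p : ℕ × ℕ // 4 * (p.1 : ℤ) + 6 * p.2 = (W : ℤ)}) (z : s → ZMod ℓ) :
    ∃ P : MvPolynomial (Fin 2) (ZMod ℓ), Isob P W ∧
      phi ℓ P = ∑ i, z i • (SiegelKlingen.monoInt i.1.1).map (Int.castRingHom (ZMod ℓ)) ∧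
      (P = 0 → z = 0) := by
  classical
  obtain ⟨e, he⟩ : ∃ e : s → (Fin 2 →₀ ℕ),
      ∀ i, e i = Finsupp.equivFunOnFinite.symm ![i.1.1.1, i.1.1.2] := ⟨_, fun _ => rfl⟩
  have hei : Function.Injective e := fun a b h => by
    rw [he, he] at h
    have h' := Finsupp.equivFunOnFinite.symm.injective h
    exact Subtype.ext (Subtype.ext (Prod.ext (congrFun h' 0) (congrFun h' 1)))
  refine ⟨∑ i, monomial (e i) (z i), ?_, ?_, fun h => funext fun i => ?_⟩
  · refine IsWeightedHomogeneous.sum _ _ _ fun i _ => isWeightedHomogeneous_monomial _ _ _ ?_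
    rw [weight_eq, he]
    have := i.1.2
    simp
    omega
  · rw [map_sum]
    refine Finset.sum_congr rfl fun i _ => ?_
    rw [monomial_eq_mul, SiegelKlingen.monoInt, he]
    simp [phi, e4, e6, PowerSeries.smul_eq_C_mul]
  · have hc := congrArg (MvPolynomial.coeff (e i)) h
    rw [coeff_sum, MvPolynomial.coeff_zero, Finset.sum_eq_single i (fun j _ hj => by
      rw [coeff_monomial, if_neg fun h' => hj (hei h')]) (by simp), coeff_monomial,
      if_pos rfl] at hc
    exact hc

/-- **A level one form whose series reduces to a series over `𝔽_ℓ`.** -/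
theorem isFormModP_of_reduction {O : ValuationSubring ℂ} {ℓ : ℕ} [hF : Fact ℓ.Prime] (h5 : 5 ≤ ℓ)
    (hℓ : O.valuation (ℓ : ℂ) < 1) {W : ℕ} {G : ℍ → ℂ} (hG : IsLv 1 (W : ℤ) G)
    {B : PowerSeries O} (hB : B.map O.subtype = qe G) {u : IsLocalRing.ResidueField O} (hu : u ≠ 0)
    {r : PowerSeries (ZMod ℓ)}
    (hr : B.map (IsLocalRing.residue O) = PowerSeries.C u * r.map (redHom hF.out hℓ)) :
    SwinnertonDyer.IsFormModP ℓ W r := by
  classical
  obtain ⟨x, hx⟩ := Finsupp.mem_span_range_iff_exists_finsupp.1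
    (FA.LevelOneRing.mem_span (W + 1) (W : ℤ) (by push_cast; omega) hG.toMF)
  rw [Finsupp.sum] at hx
  have hq : qe G = ∑ i ∈ x.support,
      x i • (SiegelKlingen.monoInt i.1).map (Int.castRingHom ℂ) := by
    refine hG.hasQ.unique one_pos ?_
    rw [show G = ⇑hG.toMF from rfl, ← hx]
    exact HasQ.sum _ fun i _ => (SiegelKlingen.hasQ_monomial (W : ℤ) i).smul (x i)
  rw [← Finset.sum_coe_sort] at hq
  obtain ⟨ι, hι⟩ : ∃ ι, ι = redHom hF.out hℓ := ⟨_, rfl⟩
  obtain ⟨a, ha⟩ : ∃ a : ℕ → x.support → ℤ, ∀ n i,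
      a n i = PowerSeries.coeff n (SiegelKlingen.monoInt i.1.1) := ⟨_, fun _ _ => rfl⟩
  -- finitely many coefficients separate the monomials modulo `ℓ`
  have hsep : ∀ z : x.support → ZMod ℓ, z ≠ 0 → ∃ n, ∑ i, z i * (a n i : ZMod ℓ) ≠ 0 :=
    fun z hz => by
      obtain ⟨P, hP, hPphi, hPz⟩ := exists_phi_sum x.support z
      have hne : SwinnertonDyer.phi ℓ P ≠ 0 := fun e =>
        hz (hPz (SwinnertonDyer.phi_injective h5 hP e))
      obtain ⟨n, hn⟩ := PowerSeries.exists_coeff_ne_zero_iff_ne_zero.2 hne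
      refine ⟨n, fun e => hn ?_⟩
      rw [hPphi, map_sum, ← e]
      refine Finset.sum_congr rfl fun i _ => ?_
      rw [PowerSeries.coeff_smul, PowerSeries.coeff_map, ha, smul_eq_mul, eq_intCast]
  choose ν hν using hsep
  obtain ⟨M, hM⟩ : ∃ M : ℕ, ∀ z (hz : z ≠ 0), ν z hz < M := by
    refine ⟨(Finset.univ : Finset {z : x.support → ZMod ℓ // z ≠ 0}).sup
      (fun z => ν z.1 z.2) + 1, fun z hz => Nat.lt_succ_of_le ?_⟩
    exact Finset.le_sup (f := fun z : {z : x.support → ZMod ℓ // z ≠ 0} => ν z.1 z.2)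
      (b := ⟨z, hz⟩) (Finset.mem_univ _)
  obtain ⟨A, hA⟩ : ∃ A : Matrix (Fin M) x.support (ZMod ℓ), ∀ n i, A n i = (a n.1 i : ZMod ℓ) :=
    ⟨fun n i => (a n.1 i : ZMod ℓ), fun _ _ => rfl⟩
  obtain ⟨g, hg⟩ := (Matrix.mulVecLin A).exists_leftInverse_of_injective
    (LinearMap.ker_eq_bot'.2 fun z hz => by
      by_contra hz0
      refine hν z hz0 ?_
      have h' := congrFun hz ⟨ν z hz0, hM z hz0⟩
      rw [Matrix.mulVecLin_apply, Matrix.mulVec, dotProduct] at h'
      refine Eq.trans (Finset.sum_congr rfl fun i _ => ?_) h'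
      rw [hA, mul_comm])
  obtain ⟨R, hR⟩ : ∃ R : Matrix x.support (Fin M) (ZMod ℓ), R = LinearMap.toMatrix' g :=
    ⟨_, rfl⟩
  have hRA : R * A = 1 := by
    rw [hR, ← LinearMap.toMatrix'_id, ← hg, LinearMap.toMatrix'_comp]
    congr 1
    exact (LinearMap.toMatrix'_toLin' A).symm
  obtain ⟨rI, hrI⟩ : ∃ rI : x.support → Fin M → ℤ, ∀ i n, (rI i n : ZMod ℓ) = R i n :=
    ⟨fun i n => ((R i n).val : ℤ), fun i n => by simp⟩
  have hdelta : ∀ i j, ∃ e : ℤ,
      ∑ n, rI i n * a n.1 j = (if i = j then 1 else 0) + (ℓ : ℤ) * e := fun i j => by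
    have h1 := congrArg (fun M' : Matrix x.support x.support (ZMod ℓ) => M' i j) hRA
    simp only [Matrix.mul_apply, hA, ← hrI, Matrix.one_apply] at h1
    have h2 : ((∑ n, rI i n * a n.1 j - (if i = j then 1 else 0) : ℤ) : ZMod ℓ) = 0 := by
      push_cast [apply_ite (Int.cast : ℤ → ZMod ℓ)]
      rw [h1, sub_self]
    obtain ⟨e, he⟩ := (ZMod.intCast_zmod_eq_zero_iff_dvd _ _).1 h2
    exact ⟨e, by linear_combination he⟩
  choose E hE using hdelta
  have hcoef : ∀ n, ((PowerSeries.coeff n B : O) : ℂ) = ∑ i : x.support, x i.1 * (a n i : ℂ) :=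
    fun n => by
      have e := congrArg (PowerSeries.coeff n) (hB.trans hq)
      rw [PowerSeries.coeff_map, map_sum] at e
      refine e.trans (Finset.sum_congr rfl fun i _ => ?_)
      rw [PowerSeries.coeff_smul, PowerSeries.coeff_map, ha, smul_eq_mul, eq_intCast]
  -- the coordinates are integral
  have hxO : ∀ i : x.support, O.valuation (x i.1) ≤ 1 := by
    intro j
    haveI : Nonempty x.support := ⟨j⟩
    obtain ⟨i0, hi0⟩ := Finite.exists_max fun i : x.support => O.valuation (x i.1)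
    refine (hi0 j).trans ?_
    by_contra hbig
    rw [not_le] at hbig
    have hy : (∑ n, (rI i0 n : ℂ) * ((PowerSeries.coeff n.1 B : O) : ℂ)) =
        x i0.1 + ∑ i : x.support, x i.1 * ((ℓ : ℂ) * (E i0 i : ℂ)) := by
      calc (∑ n, (rI i0 n : ℂ) * ((PowerSeries.coeff n.1 B : O) : ℂ))
          = ∑ i : x.support, x i.1 * ((∑ n, rI i0 n * a n.1 i : ℤ) : ℂ) := by
            simp only [hcoef, Finset.mul_sum, Int.cast_sum]
            rw [Finset.sum_comm]
            refine Finset.sum_congr rfl fun i _ => Finset.sum_congr rfl fun n _ => ?_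
            push_cast
            ring
        _ = _ := by
            simp only [hE]
            push_cast [apply_ite (Int.cast : ℤ → ℂ)]
            simp only [mul_add, Finset.sum_add_distrib, mul_ite, mul_one, mul_zero,
              Finset.sum_ite_eq, Finset.mem_univ, if_true]
    have hle : O.valuation (∑ n, (rI i0 n : ℂ) * ((PowerSeries.coeff n.1 B : O) : ℂ)) ≤ 1 :=
      Valuation.map_sum_le _ fun n _ => by
        rw [map_mul]
        exact mul_le_one' (val_intCast_le _) (O.valuation_le_one _)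
    rw [hy, Valuation.map_add_eq_of_lt_left] at hle
    · exact absurd hle (not_le.2 hbig)
    refine Valuation.map_sum_lt _ (zero_lt_one.trans hbig).ne' fun i _ => ?_
    rw [map_mul, map_mul]
    calc O.valuation (x i.1) * (O.valuation (ℓ : ℂ) * O.valuation (E i0 i : ℂ))
        ≤ O.valuation (x i0.1) * (O.valuation (ℓ : ℂ) * 1) :=
          mul_le_mul' (hi0 i) (mul_le_mul' le_rfl (val_intCast_le _))
      _ < O.valuation (x i0.1) := by
          rw [mul_one]
          exact mul_lt_of_lt_one_right (zero_lt_one.trans hbig) hℓ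
  obtain ⟨x', hx'⟩ : ∃ x' : x.support → O, ∀ i, (x' i : ℂ) = x i.1 :=
    ⟨fun i => ⟨x i.1, (O.valuation_le_one_iff _).1 (hxO i)⟩, fun _ => rfl⟩
  obtain ⟨z, hz⟩ : ∃ z : ℕ → ZMod ℓ, ∀ n, z n = PowerSeries.coeff n r := ⟨_, fun _ => rfl⟩
  have hred : ∀ n, u * ι (z n) =
      ∑ i, IsLocalRing.residue O (x' i) * ι (a n i : ZMod ℓ) := fun n => by
    have e : PowerSeries.coeff n B = ∑ i, x' i * (a n i : O) := Subtype.ext (by
      rw [hcoef]
      push_cast
      simp only [hx'])
    have h2 := congrArg (PowerSeries.coeff n) hr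
    rw [PowerSeries.coeff_map, e, map_sum, PowerSeries.coeff_C_mul, PowerSeries.coeff_map, ← hz,
      ← hι] at h2
    rw [← h2]
    refine Finset.sum_congr rfl fun i _ => ?_
    rw [map_mul, map_intCast, map_intCast]
  obtain ⟨c, hc⟩ : ∃ c : x.support → ZMod ℓ, ∀ i, c i = ∑ n, R i n * z n.1 := ⟨_, fun _ => rfl⟩
  have hcoord : ∀ i, IsLocalRing.residue O (x' i) = u * ι (c i) := fun i => by
    have h1 : ∀ j, ∑ n, R i n * (a n.1 j : ZMod ℓ) = if i = j then 1 else 0 := fun j => by
      have e := congrArg (fun M' : Matrix x.support x.support (ZMod ℓ) => M' i j) hRA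
      simpa only [Matrix.mul_apply, hA, Matrix.one_apply] using e
    rw [hc, map_sum, Finset.mul_sum]
    symm
    calc ∑ n, u * ι (R i n * z n.1)
        = ∑ j, IsLocalRing.residue O (x' j) * ι (∑ n, R i n * (a n.1 j : ZMod ℓ)) := by
          simp only [map_mul, map_sum, mul_left_comm u, hred, Finset.mul_sum]
          rw [Finset.sum_comm]
          refine Finset.sum_congr rfl fun j _ => Finset.sum_congr rfl fun n _ => ?_
          ring
      _ = _ := by simp [h1, apply_ite ι]
  obtain ⟨P, hP, hPphi, -⟩ := exists_phi_sum x.support c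
  suffices e : SwinnertonDyer.phi ℓ P = r from e ▸ SwinnertonDyer.isFormModP_phi hP
  refine PowerSeries.ext fun n => redHom_injective hF.out hℓ (mul_left_cancel₀ hu ?_)
  rw [← hι, ← hz, hred, hPphi, map_sum, map_sum, Finset.mul_sum]
  refine Finset.sum_congr rfl fun i _ => ?_
  rw [PowerSeries.coeff_smul, PowerSeries.coeff_map, smul_eq_mul, map_mul, hcoord, ha, eq_intCast,
    mul_assoc]

end FA.KlingenIntegral

end
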