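import Fermat.Agent.KlingenIntegral.Cusps
import Fermat.Agent.KlingenTwo.Values
import Fermat.Agent.SiegelKlingen.ValuesTwo
import Fermat.Agent.ArtinL.BiquadraticUnits

/-!
# The values at `1 - k` at a prime not dividing the conductor with `k n` an admissible weight

The functional equation turns the value into a Gauss sum times normalised values times
`(|d| N J) ^ (k - 1)` and numbers prime to `ℓ`. At `k = 1` the auxiliary prime is chosen prime to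
`ℓ` with a value of order not a power of `ℓ`: a totally odd character takes the value `-1`.
-/

set_option autoImplicit false
set_option linter.unusedSectionVars false
set_option linter.style.haveILetI false

noncomputable section

open NumberField InfinitePlace IsDedekindDomain Module Filter Complex
open scoped Real nonZeroDivisors Classical Topology

namespace FA.KlingenIntegral

open FA.HeckeFE FA.SiegelKlingen FA.HeckeCharFE FA.KlingenRay
open FA.Hecke (IsRayChar IsNontrivial heckeL fPow)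
open FA.PadicEulerFactor (pMul)
open FA.KlingenZero (auxRes limVal valueSum1 normVal1)

variable {K : Type*} [Field K] [NumberField K]
variable {𝔪 : Ideal (𝓞 K)} {f : Ideal (𝓞 K) →* ℂ} {S : Finset (InfinitePlace K)}
variable {O : ValuationSubring ℂ} {ℓ : ℕ}

theorem val_char (h : IsRayChar 𝔪 f) (I : Ideal (𝓞 K)) : O.valuation (f I) ≤ 1 := by
  rcases zero_or_root h I with h0 | ⟨M, hM, hM'⟩
  · rw [h0, map_zero]
    exact zero_le
  · exact (val_root hM.ne' hM').le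

theorem val_sgnS (S : Finset (InfinitePlace K)) (x : K) : O.valuation (sgnS S x) ≤ 1 := by
  rw [sgnS, map_prod]
  refine Finset.prod_le_one' fun w _ => ?_
  rcases Real.sign_apply_eq (rv w x) with h | h | h <;> simp [h]

theorem val_res (h : HasSigns 𝔪 f S) (I : (FractionalIdeal (𝓞 K)⁰ K)ˣ) (x : K) :
    O.valuation (res 𝔪 f S I x) ≤ 1 := by
  rw [res]
  split_ifs
  · rw [map_mul, map_mul, map_inv₀, resFn, map_mul]
    obtain ⟨M, hM, hM'⟩ := (zero_or_root h.ray (intIdeal 𝔪 I)).resolve_left (h.f_intIdeal_ne_zero I)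
    rw [val_root hM.ne' hM', inv_one, one_mul]
    exact mul_le_one' (val_sgnS _ _) (mul_le_one' (val_char h.ray _) (val_sgnS _ _))
  · rw [map_zero]
    exact zero_le

/-- **The Gauss sum is integral.** -/
theorem val_gaussW (h : HasSigns 𝔪 f S) : O.valuation (gaussW 𝔪 f S) ≤ 1 := by
  have hN0 : Ideal.absNorm 𝔪 ≠ 0 := fun e => h.ne_bot (Ideal.absNorm_eq_zero_iff.1 e)
  obtain ⟨w, hw⟩ : ∃ w : K,
      w = (gam 𝔪 (dualAt 𝔪 1))⁻¹ * (unitElt 𝔪 (dualAt 𝔪 1) : K) := ⟨_, rfl⟩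
  have hwmem : w ∈ (dualAt 𝔪 1 : Set K) := by
    obtain ⟨hγ, -, hJ, -⟩ := intIdeal_spec 𝔪 (dualAt 𝔪 1)
    have hm : (unitElt 𝔪 (dualAt 𝔪 1) : K) ∈
        (intIdeal 𝔪 (dualAt 𝔪 1) : FractionalIdeal (𝓞 K)⁰ K) :=
      (FractionalIdeal.mem_coeIdeal _).2 ⟨_, (unitElt_spec h.ne_bot (dualAt 𝔪 1)).1, rfl⟩
    rw [hJ, FractionalIdeal.mem_singleton_mul] at hm
    obtain ⟨y, hy, e⟩ := hm
    rw [hw, e, ← mul_assoc, inv_mul_cancel₀ hγ, one_mul]
    exact hy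
  have hpow : ∀ (s : ℕ) (x : K), trChar ((s : K) * x) = trChar x ^ s := fun s x => by
    induction s with
    | zero => simp [trChar]
    | succ s ih => rw [Nat.cast_succ, add_mul, one_mul, trChar_add, ih, pow_succ]
  have hroot : ∀ b : 𝓞 K, trChar (w * (b : K)) ^ Ideal.absNorm 𝔪 = 1 := fun b => by
    rw [← hpow, show (Ideal.absNorm 𝔪 : K) * (w * (b : K)) =
      w * (((Ideal.absNorm 𝔪 : 𝓞 K) * b : 𝓞 K) : K) by push_cast; ring]
    exact trChar_dualAt h.ne_bot hwmem (𝔪.mul_mem_right _ (Ideal.absNorm_mem 𝔪))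
  obtain ⟨M, hM, hM'⟩ :=
    (zero_or_root h.ray (intIdeal 𝔪 (dualAt 𝔪 1))).resolve_left (h.f_intIdeal_ne_zero _)
  rw [gaussW, ← hw, map_div₀, map_mul, val_root hM.ne' hM', div_one]
  refine mul_le_one' ?_ (val_sgnS _ _)
  have : Finite (𝓞 K ⧸ 𝔪) := Ideal.finiteQuotientOfFreeOfNeBot 𝔪 h.ne_bot
  let _ := Fintype.ofFinite (𝓞 K ⧸ 𝔪)
  rw [gaussSumAt, tsum_fintype]
  refine Valuation.map_sum_le _ fun b _ => ?_
  rw [map_mul, val_root hN0 (hroot _), mul_one, resFn, map_mul]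
  exact mul_le_one' (val_char h.ray _) (val_sgnS _ _)

/-- A root of unity of order not a power of `ℓ` is not `1` modulo `ℓ`. -/
theorem val_one_sub (hp : ℓ.Prime) (hℓ : O.valuation (ℓ : ℂ) < 1) {z : ℂ} {M : ℕ} (hM : M ≠ 0)
    (hz : z ^ M = 1) (hne : ∀ j : ℕ, z ^ ℓ ^ j ≠ 1) : O.valuation (1 - z) = 1 := by
  have hv : O.valuation z = 1 := val_root hM hz
  refine le_antisymm ((Valuation.map_sub _ _ _).trans (max_le (map_one _).le hv.le)) ?_
  by_contra hlt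
  rw [not_le] at hlt
  obtain ⟨j, M', hM', rfl⟩ := Nat.exists_eq_pow_mul_and_not_dvd hM ℓ hp.ne_one
  have hsmall : ∀ m : ℕ, O.valuation (1 - z ^ m) < 1 := fun m => by
    rw [← geom_sum_mul_neg z m, map_mul]
    refine (mul_le_of_le_one_left' (Valuation.map_sum_le _ fun i _ => ?_)).trans_lt hlt
    rw [map_pow, hv, one_pow]
  obtain ⟨y, hy⟩ : ∃ y, y = z ^ ℓ ^ j := ⟨_, rfl⟩
  have hsum : ∑ i ∈ Finset.range M', y ^ i = 0 := by
    have e := geom_sum_mul y M'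
    rw [hy, ← pow_mul, hz, sub_self] at e
    rw [hy]
    exact (mul_eq_zero.1 e).resolve_right (sub_ne_zero.2 (hne j))
  have e : (M' : ℂ) = ∑ i ∈ Finset.range M', (1 - y ^ i) := by
    rw [Finset.sum_sub_distrib, hsum, Finset.sum_const, Finset.card_range, nsmul_one, sub_zero]
  have h1 : O.valuation (M' : ℂ) < 1 := e ▸ Valuation.map_sum_lt' _ zero_lt_one fun i _ => by
    rw [hy, ← pow_mul]
    exact hsmall _
  exact absurd (val_natCast_eq_one hp hℓ hM') h1.ne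

section TotallyReal

variable [IsTotallyReal K]

/-- **An auxiliary prime**, prime to `ℓ`, with a value that is not `1` modulo `ℓ`. -/
theorem exists_aux_unit (hp : ℓ.Prime) (hℓ : O.valuation (ℓ : ℂ) < 1) (h5 : 5 ≤ ℓ)
    (h : HasSigns 𝔪 f Finset.univ) : ∃ 𝔭 : Ideal (𝓞 K), 𝔭 ≠ ⊥ ∧ 𝔭 ⊔ 𝔪 = ⊤ ∧
      ¬ℓ ∣ Ideal.absNorm 𝔭 ∧ f 𝔭 ≠ 1 ∧ O.valuation (1 - f 𝔭) = 1 := by
  obtain ⟨w⟩ := (inferInstance : Nonempty (InfinitePlace K))
  have hℓ0 : Ideal.span {(ℓ : 𝓞 K)} ≠ ⊥ := by simpa using hp.ne_zero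
  have hm' : 𝔪 * Ideal.span {(ℓ : 𝓞 K)} ≠ ⊥ := fun e => (Ideal.mul_eq_bot.1 e).elim h.ne_bot hℓ0
  obtain ⟨y, hy0, hy1, hyn, hyp⟩ := exists_negative_at hm' (IsTotallyReal.isReal w)
  have hneg : f (Ideal.span {y}) = -1 := by
    rw [h.sgn y hy0 ((show 𝔪 * Ideal.span {(ℓ : 𝓞 K)} ≤ 𝔪 from Ideal.mul_le_left) hy1), sgnS,
      Finset.prod_eq_single w (fun w' _ hw' => by
        rw [Real.sign_of_pos (hyp w' (IsTotallyReal.isReal w') hw'), ofReal_one]) (by simp),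
      Real.sign_of_neg hyn, ofReal_neg, ofReal_one]
  have hcop : Ideal.span {y} ⊔ 𝔪 * Ideal.span {(ℓ : 𝓞 K)} = ⊤ := by
    rw [FA.Hecke.span_sup_congr hy1, Ideal.span_singleton_one, top_sup_eq]
  by_contra hcon
  push Not at hcon
  have key : ∀ I : Ideal (𝓞 K), I ≠ ⊥ → I ⊔ 𝔪 * Ideal.span {(ℓ : 𝓞 K)} = ⊤ →
      ∃ j : ℕ, f I ^ ℓ ^ j = 1 := by
    intro I
    induction I using UniqueFactorizationMonoid.induction_on_prime with
    | h₁ => exact fun hI => absurd rfl hI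
    | h₂ x hx => exact fun _ _ => ⟨0, by rw [Ideal.isUnit_iff.1 hx, ← Ideal.one_eq_top, map_one,
        one_pow]⟩
    | h₃ a p ha hpp ih =>
      intro _ hc
      have hp0 : p ≠ ⊥ := hpp.ne_zero
      have hpc : p ⊔ 𝔪 * Ideal.span {(ℓ : 𝓞 K)} = ⊤ :=
        top_le_iff.1 (hc.ge.trans (sup_le_sup_right Ideal.mul_le_left _))
      have hac : a ⊔ 𝔪 * Ideal.span {(ℓ : 𝓞 K)} = ⊤ :=
        top_le_iff.1 (hc.ge.trans (sup_le_sup_right Ideal.mul_le_right _))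
      have hpm : p ⊔ 𝔪 = ⊤ := top_le_iff.1 (hpc.ge.trans (sup_le_sup_left Ideal.mul_le_left _))
      have hmax := (Ideal.isPrime_of_prime hpp).isMaximal hp0
      have hndvd : ¬ℓ ∣ Ideal.absNorm p := fun hd => by
        have : Finite (𝓞 K ⧸ p) := Ideal.finiteQuotientOfFreeOfNeBot p hp0
        obtain ⟨x, hx⟩ := exists_prime_addOrderOf_dvd_card' (G := 𝓞 K ⧸ p)
          (hp := ⟨hp⟩) ℓ (by rwa [Ideal.absNorm_apply, Submodule.cardQuot_apply] at hd)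
        obtain ⟨b, rfl⟩ := Ideal.Quotient.mk_surjective x
        have hb : (ℓ : 𝓞 K) * b ∈ p := by
          rw [← Ideal.Quotient.eq_zero_iff_mem, map_mul, map_natCast, ← nsmul_eq_mul]
          exact hx ▸ addOrderOf_nsmul_eq_zero _
        rcases hmax.isPrime.mem_or_mem hb with hb | hb
        · exact hmax.ne_top (top_le_iff.1 (hpc.ge.trans (sup_le le_rfl
            (Ideal.mul_le_right.trans ((Ideal.span_singleton_le_iff_mem _).2 hb)))))
        · rw [← Ideal.Quotient.eq_zero_iff_mem] at hb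
          rw [hb, addOrderOf_zero] at hx
          exact hp.ne_one hx.symm
      obtain ⟨i, hi⟩ : ∃ i : ℕ, f p ^ ℓ ^ i = 1 := by
        by_contra hn
        push Not at hn
        obtain ⟨M, hM, hM'⟩ := (zero_or_root h.ray p).resolve_left ((h.ray.ne_zero_iff p hp0).2 hpm)
        exact hcon p hp0 hpm hndvd (fun e => hn 0 (by rw [e, one_pow]))
          (val_one_sub hp hℓ hM.ne' hM' hn)
      obtain ⟨j, hj⟩ := ih ha hac
      refine ⟨i + j, ?_⟩
      rw [map_mul, mul_pow, pow_add, pow_mul, hi, one_pow, one_mul, mul_comm (ℓ ^ i), pow_mul, hj,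
        one_pow]
  obtain ⟨j, hj⟩ := key _ (by simpa using hy0) hcop
  rw [hneg, Odd.neg_one_pow ((hp.odd_of_ne_two (by omega)).pow)] at hj
  norm_num at hj

theorem absNorm_pMul (J : (FractionalIdeal (𝓞 K)⁰ K)ˣ) (N : ℕ) [NeZero N] :
    FractionalIdeal.absNorm (pMul J N : FractionalIdeal (𝓞 K)⁰ K) =
      (N : ℚ) ^ finrank ℚ K * FractionalIdeal.absNorm (J : FractionalIdeal (𝓞 K)⁰ K) := by
  rw [pMul, Units.val_mul, Units.val_mk0, map_mul, FractionalIdeal.absNorm_span_singleton,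
    ← mul_one (N : K), norm_natCast_mul, map_one, abs_one, mul_one]

/-- **The weight of a class times the factor of the functional equation.** -/
theorem val_classTerm (hp : ℓ.Prime) (hℓ : O.valuation (ℓ : ℂ) < 1) (h5 : 5 ≤ ℓ)
    (𝔪 : Ideal (𝓞 K)) {N : ℕ} [NeZero N] (hN : ¬ℓ ∣ N) {k : ℕ} (hk : 1 ≤ k) (C : ClassGroup (𝓞 K)) {x : ℂ}
    (hx : O.valuation (((dualScale (repIdeal K C) ^ (k - 1) : ℚ) : ℂ) * x) ≤ 1) :
    O.valuation (((feFactor K 𝔪 k : ℚ) : ℂ) * (((classWeight C k N : ℚ) : ℂ) * x)) ≤ 1 := by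
  obtain ⟨a, ha⟩ : ∃ a : ℤ, a = (Ideal.absNorm 𝔪 : ℤ) ^ (k - 1) *
      (2 * (-1) ^ k) ^ finrank ℚ K := ⟨_, rfl⟩
  obtain ⟨b, hb⟩ : ∃ b : ℕ, b = 2 * N ^ finrank ℚ K := ⟨_, rfl⟩
  have hbv : O.valuation (b : ℂ) = 1 := val_natCast_eq_one hp hℓ fun hd => by
    rcases hp.dvd_mul.1 (hb ▸ hd) with h | h
    · have := Nat.le_of_dvd two_pos h
      omega
    · exact hN (hp.dvd_of_dvd_pow h)
  have hA : FractionalIdeal.absNorm (repIdeal K C : FractionalIdeal (𝓞 K)⁰ K) ≠ 0 :=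
    fun e => (repIdeal K C).ne_zero (FractionalIdeal.absNorm_eq_zero_iff.1 e)
  have e : feFactor K 𝔪 k * classWeight C k N =
      (a : ℚ) / (b : ℚ) * dualScale (repIdeal K C) ^ (k - 1) := by
    obtain ⟨j, rfl⟩ : ∃ j, k = j + 1 := ⟨k - 1, by omega⟩
    rw [ha, hb, feFactor, classWeight, absNorm_pMul, dualScale,
      FA.ArtinL.BiquadraticUnits.torsionOrder_eq_two, Nat.add_sub_cancel]
    push_cast
    rw [mul_pow _ ((j.factorial : ℕ) : ℚ)]
    field_simp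
    ring
  rw [← mul_assoc, ← Rat.cast_mul, e, Rat.cast_mul, mul_assoc, map_mul, Rat.cast_div,
    Rat.cast_intCast, Rat.cast_natCast, map_div₀, hbv, div_one]
  exact mul_le_one' (val_intCast_le _) hx

/-- **The rational combination of normalised values.** -/
theorem val_valueSum (hp : ℓ.Prime) (hℓ : O.valuation (ℓ : ℂ) < 1) (h5 : 5 ≤ ℓ) {k N : ℕ} [NeZero N]
    (h : HasSigns 𝔪 f S) (hpar : HasParity S k) (hk : 2 ≤ k) (hk2 : k = 2 → 2 ≤ finrank ℚ K)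
    (hkn : FA.WeightLevel.Admissible ℓ (k * finrank ℚ K)) (hNm : (N : 𝓞 K) ∈ 𝔪) (hN : ¬ℓ ∣ N) :
    O.valuation (((feFactor K 𝔪 k : ℚ) : ℂ) * valueSum 𝔪 f S k N) ≤ 1 := by
  rw [valueSum, Finset.mul_sum]
  refine Valuation.map_sum_le _ fun C _ => val_classTerm hp hℓ h5 𝔪 hN (by omega) C ?_
  rcases Nat.eq_or_lt_of_le hk with hk' | hk'
  · subst hk'
    exact val_normVal_two hp hℓ h5 hN (isPer_res h hpar hNm _) (hk2 rfl) hkn
      fun d _ => val_res h _ d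
  · exact val_normVal hp hℓ h5 hN (isPer_res h hpar hNm _) hk' hkn fun d _ => val_res h _ d

/-- **A primitive character, `k ≥ 2`.** -/
theorem val_primExt (hp : ℓ.Prime) (hℓ : O.valuation (ℓ : ℂ) < 1) (h5 : 5 ≤ ℓ) {k : ℕ}
    (h : HasSigns 𝔪 f S) (hpr : IsPrimitiveChar 𝔪 f) (hnt : IsNontrivial f) (hk : 2 ≤ k)
    (hk2 : k = 2 → 2 ≤ finrank ℚ K) (hkn : FA.WeightLevel.Admissible ℓ (k * finrank ℚ K))
    (hN : ¬ℓ ∣ Ideal.absNorm 𝔪) : O.valuation (primExt h hpr (1 - (k : ℂ))) ≤ 1 := by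
  have : NeZero (Ideal.absNorm 𝔪) := ⟨fun e => h.ne_bot (Ideal.absNorm_eq_zero_iff.1 e)⟩
  by_cases hpar : HasParity S k
  · rw [primExt_one_sub h hpr hnt hpar hk (Ideal.absNorm 𝔪), primValue, mul_left_comm, map_mul]
    exact mul_le_one' (val_gaussW h)
      (val_valueSum hp hℓ h5 h.conj hpar hk hk2 hkn (Ideal.absNorm_mem 𝔪) hN)
  · rw [primExt, invFac_eq_zero 𝔪 hpar hk, zero_mul, map_zero]
    exact zero_le

/-- **A primitive character, `k = 1`.** -/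
theorem val_primExt_zero (hp : ℓ.Prime) (hℓ : O.valuation (ℓ : ℂ) < 1) (h5 : 5 ≤ ℓ)
    (h : HasSigns 𝔪 f S) (hpr : IsPrimitiveChar 𝔪 f) (hnt : IsNontrivial f)
    (hkn : FA.WeightLevel.Admissible ℓ (finrank ℚ K)) (hN : ¬ℓ ∣ Ideal.absNorm 𝔪) :
    O.valuation (primExt h hpr 0) ≤ 1 := by
  by_cases hS : S = Finset.univ
  swap
  · rw [primExt, FA.KlingenZero.invFac_zero hS, zero_mul, map_zero]
    exact zero_le
  subst hS
  obtain ⟨𝔭, hp0, hc, hpn, hne, hunit⟩ := exists_aux_unit hp hℓ h5 h.conj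
  obtain ⟨N, hN'⟩ : ∃ N, N = Ideal.absNorm 𝔪 * Ideal.absNorm 𝔭 := ⟨_, rfl⟩
  have : NeZero N := ⟨hN' ▸ mul_ne_zero (fun e => h.ne_bot (Ideal.absNorm_eq_zero_iff.1 e))
    fun e => hp0 (Ideal.absNorm_eq_zero_iff.1 e)⟩
  have hNd : ¬ℓ ∣ N := fun hd => (hp.dvd_mul.1 (hN' ▸ hd)).elim hN hpn
  have hNm : (N : 𝓞 K) ∈ 𝔪 := by
    rw [hN', Nat.cast_mul]
    exact 𝔪.mul_mem_right _ (Ideal.absNorm_mem 𝔪)
  have hNp : (N : 𝓞 K) ∈ 𝔭 := by
    rw [hN', Nat.cast_mul]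
    exact 𝔭.mul_mem_left _ (Ideal.absNorm_mem 𝔭)
  rw [FA.KlingenZero.primExt_zero h hpr hnt hp0 hne N, ← mul_div_assoc, map_div₀, hunit, div_one,
    mul_left_comm, map_mul]
  refine mul_le_one' (val_gaussW h) ?_
  rw [valueSum1, Finset.mul_sum]
  refine Valuation.map_sum_le _ fun C _ => val_classTerm hp hℓ h5 𝔪 hNd le_rfl C ?_
  rw [Nat.sub_self, pow_zero, Rat.cast_one, one_mul]
  refine val_normVal1 hp hℓ h5 hNd (FA.KlingenZero.isPer_auxRes h.conj hp0 hNm hNp)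
    (FA.KlingenZero.hatSum_auxRes_zero h.conj hp0 hc hNm hNp)
    (FA.KlingenZero.hasLim_limVal h.conj hp0 hpr.conj _) hkn fun d _ => ?_
  rw [auxRes, map_mul]
  refine mul_le_one' (val_res h.conj _ d) ((Valuation.map_sub _ _ _).trans (max_le (map_one _).le ?_))
  rw [map_mul]
  refine mul_le_one' (val_natCast_le _) ?_
  split_ifs <;> simp

/-- **The zeta function of the field, `k ≥ 2`.** -/
theorem val_extension (hp : ℓ.Prime) (hℓ : O.valuation (ℓ : ℂ) < 1) (h5 : 5 ≤ ℓ) {k : ℕ}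
    (hk : 2 ≤ k) (hk2 : k = 2 → 2 ≤ finrank ℚ K) (hkn : FA.WeightLevel.Admissible ℓ (k * finrank ℚ K)) :
    O.valuation (extension K (1 - (k : ℂ))) ≤ 1 := by
  rcases Nat.even_or_odd k with hev | hodd
  swap
  · obtain ⟨r, hr, hr0⟩ := FA.KlingenTwo.exists_extension_eq (K := K) hk
    rw [hr, hr0.2 hodd, Rat.cast_zero, map_zero]
    exact zero_le
  have h1 : HasSigns (⊤ : Ideal (𝓞 K)) (1 : Ideal (𝓞 K) →* ℂ) ∅ :=
    ⟨IsRayChar.one, by simp, fun x _ _ => by simp [sgnS]⟩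
  obtain ⟨r, -, hr⟩ := dedekindZeta_mem (K := K) hev hk (classZ_mem_even hev hk)
  have hs : 1 < (k : ℂ).re := by
    rw [natCast_re]
    exact_mod_cast (by omega : 1 < k)
  have hV := heckeL_value h1 (Or.inl ⟨hev, rfl⟩) hk 1
  rw [FA.Hecke.heckeL_one hs, hr] at hV
  have hb := val_valueSum hp hℓ h5 (N := 1) h1 (Or.inl ⟨hev, rfl⟩) hk hk2 hkn
    (by simp) hp.not_dvd_one
  obtain ⟨t, rfl⟩ := hev.two_dvd
  obtain ⟨D, hD⟩ : ∃ D : ℕ, D = (discr K).natAbs := ⟨_, rfl⟩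
  have hD0 : (D : ℂ) ≠ 0 := Nat.cast_ne_zero.2 (hD ▸ Int.natAbs_ne_zero.2 (discr_ne_zero K))
  have hd : (SiegelKlingen.rootDiscr K : ℂ) * (SiegelKlingen.rootDiscr K : ℂ) = (D : ℂ) := by
    rw [← ofReal_mul, SiegelKlingen.rootDiscr, Real.mul_self_sqrt (abs_nonneg _), hD, ← ofReal_natCast,
      Nat.cast_natAbs, Int.cast_abs]
  have hroot : (SiegelKlingen.rootDiscr K : ℂ) ≠ 0 := left_ne_zero_of_mul (hd.symm ▸ hD0)
  have hπ : (π : ℂ) ^ (2 * t * finrank ℚ K) ≠ 0 := pow_ne_zero _ (ofReal_ne_zero.2 Real.pi_ne_zero)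
  have hp4 : (-(2 * (π : ℂ) * I)) ^ (2 * t * finrank ℚ K) =
      (-4) ^ (t * finrank ℚ K) * (π : ℂ) ^ (2 * t * finrank ℚ K) := by
    rw [mul_assoc 2 t, pow_mul, pow_mul (π : ℂ), ← mul_pow]
    congr 1
    linear_combination (4 * (π : ℂ) ^ 2) * I_sq
  have hrV : (r : ℂ) * (D : ℂ) = (-4) ^ (t * finrank ℚ K) * valueSum (⊤ : Ideal (𝓞 K)) 1 ∅ (2 * t) 1 := by
    rw [piConst, hp4, show (√|((discr K : ℤ) : ℝ)| : ℝ) = SiegelKlingen.rootDiscr K from rfl] at hV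
    rw [← hd]
    field_simp at hV
    linear_combination hV
  refine le_of_eq_of_le (congrArg O.valuation ?_) hb
  rw [extension_eq (by omega) hr, feFactor, Ideal.absNorm_top, mul_one, ← hD]
  obtain ⟨j, hj⟩ : ∃ j, 2 * t = j + 1 := ⟨2 * t - 1, by omega⟩
  have hsign : ((-1 : ℂ) ^ t / 2 ^ (2 * t)) ^ finrank ℚ K * (-4) ^ (t * finrank ℚ K) = 1 := by
    rw [pow_mul (-4 : ℂ), ← mul_pow, div_mul_eq_mul_div, ← mul_pow, pow_mul (2 : ℂ)]
    norm_num
  have hfac : (D : ℂ) ^ (2 * t) = (D : ℂ) ^ (2 * t - 1) * (D : ℂ) := by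
    rw [hj, Nat.add_sub_cancel, pow_succ]
  push_cast
  rw [show (-1 : ℂ) ^ (2 * t) = 1 by rw [pow_mul, neg_one_sq, one_pow], mul_one, hfac,
    mul_assoc (2 : ℂ), mul_div_assoc, mul_pow, mul_pow]
  linear_combination ((D : ℂ) ^ (2 * t - 1) * (2 ^ finrank ℚ K * (((2 * t - 1).factorial : ℕ) : ℂ) ^
      finrank ℚ K) * ((-1 : ℂ) ^ t / 2 ^ (2 * t)) ^ finrank ℚ K) * hrV +
    ((D : ℂ) ^ (2 * t - 1) * (2 ^ finrank ℚ K * (((2 * t - 1).factorial : ℕ) : ℂ) ^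
      finrank ℚ K) * valueSum (⊤ : Ideal (𝓞 K)) 1 ∅ (2 * t) 1) * hsign

/-- **The zeta function of the field at `0`.** -/
theorem val_extension_zero (hp : ℓ.Prime) (hℓ : O.valuation (ℓ : ℂ) < 1) (h5 : 5 ≤ ℓ) :
    O.valuation (extension K 0) ≤ 1 := by
  by_cases h1 : finrank ℚ K = 1
  · have hb := Module.Free.bijective_algebraMap_of_finrank_eq_one (R := ℚ) (S := K) h1
    obtain ⟨e, -⟩ : ∃ e : K ≃ₐ[ℚ] ℚ, True :=
      ⟨(AlgEquiv.ofBijective (Algebra.ofId ℚ K) hb).symm, trivial⟩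
    have hE : IsLExt (1 : Ideal (𝓞 K) →* ℂ) (extension K) :=
      ⟨differentiableOn_extension K, fun s hs => by
        rw [extension_eq_dedekindZeta K hs, FA.Hecke.heckeL_one hs]⟩
    have hR : IsLExt (1 : Ideal (𝓞 K) →* ℂ) riemannZeta :=
      ⟨fun s hs => (differentiableAt_riemannZeta hs).differentiableWithinAt, fun s hs => by
        rw [FA.Hecke.heckeL_one hs, FA.AbelianZeta.dedekindZeta_congr e.toRingEquiv,
          FA.ArtinL.dedekindZeta_rat hs]⟩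
    rw [hE.unique hR zero_ne_one, riemannZeta_zero, map_div₀, Valuation.map_neg, map_one,
      show (2 : ℂ) = ((2 : ℕ) : ℂ) by norm_num,
      val_natCast_eq_one hp hℓ fun hd => by have := Nat.le_of_dvd two_pos hd; omega, div_one]
  · obtain ⟨r, hr, hr0⟩ := FA.KlingenZero.exists_extension_zero (K := K)
    rw [hr, hr0.2 h1, Rat.cast_zero, map_zero]
    exact zero_le

/-- **Every ray class character, every `k ≥ 1`.** -/
theorem val_value (hp : ℓ.Prime) (hℓ : O.valuation (ℓ : ℂ) < 1) (h5 : 5 ≤ ℓ) {k : ℕ}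
    (h : IsRayChar 𝔪 f) (hk : 1 ≤ k) (hk2 : k = 2 → 2 ≤ finrank ℚ K)
    (hkn : FA.WeightLevel.Admissible ℓ (k * finrank ℚ K)) (hN : ¬ℓ ∣ Ideal.absNorm 𝔪) {Z : ℂ → ℂ} (hZ : IsLExt f Z) :
    O.valuation (Z (1 - (k : ℂ))) ≤ 1 := by
  have h1 := one_sub_ne_one (k := k) hk
  have hfac : ∀ {𝔣 : Ideal (𝓞 K)} {g : Ideal (𝓞 K) →* ℂ}, IsRayChar 𝔣 g →
      ∀ T : Finset (HeightOneSpectrum (𝓞 K)),
        O.valuation (∏ v ∈ T, (1 - fPow g (1 - (k : ℂ)) v)) ≤ 1 := fun hg T => by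
    rw [map_prod]
    refine Finset.prod_le_one' fun v _ => (Valuation.map_sub _ _ _).trans (max_le (map_one _).le ?_)
    rw [fPow, primePow_one_sub v hk, map_mul, map_pow]
    exact mul_le_one' (val_char hg _) (pow_le_one₀ zero_le (val_natCast_le _))
  by_cases hnt : IsNontrivial f
  · obtain ⟨𝔣, g, hle, hg, hpr, hgn, hgf⟩ := exists_primitive h
    obtain ⟨S, hS⟩ := exists_hasSigns hg
    have hNf : ¬ℓ ∣ Ideal.absNorm 𝔣 := fun hd =>
      hN (hd.trans (Ideal.absNorm_dvd_absNorm_of_le hle))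
    rw [hZ.unique (isLExt_induced h hS hpr (hgn hnt) hgf) h1, map_mul]
    refine mul_le_one' ?_ (hfac hg _)
    rcases Nat.eq_or_lt_of_le hk with hk1 | hk'
    · subst hk1
      rw [FA.KlingenZero.one_sub_one]
      exact val_primExt_zero hp hℓ h5 hS hpr (hgn hnt) (by rwa [one_mul] at hkn) hNf
    · exact val_primExt hp hℓ h5 hS hpr (hgn hnt) hk' hk2 hkn hNf
  · rw [hZ.unique (isLExt_trivial h hnt) h1, map_mul]
    refine mul_le_one' ?_ (hfac IsRayChar.one _)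
    rcases Nat.eq_or_lt_of_le hk with hk1 | hk'
    · subst hk1
      rw [FA.KlingenZero.one_sub_one]
      exact val_extension_zero hp hℓ h5
    · exact val_extension hp hℓ h5 hk' hk2 hkn

end TotallyReal

end FA.KlingenIntegral

end
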